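import Fermat.Agent.CFT.Cyclic.Carry

/-!
# Cyclic symbols: the Kummer cup product and the norm criterion

`G` acts on a commutative group `A`, `χ : G → ZMod n` is additive, `β : A` has `β ^ n` fixed by `G`.
The cochain `kummerCup χ β (σ, τ) = (σ • (τ • β / β)) ^ (χ σ).val` is the cup product of `χ` with
the Kummer cocycle `τ ↦ τ • β / β` of `b = β ^ n` (convention `(f ∪ g)(σ, τ) = f σ ⊗ σ • g τ`).

* `kummerCup_eq`: `kummerCup χ β = carry χ (β ^ n) / d (σ ↦ (σ • β) ^ (χ σ).val)`;
* `exists_torsion_cochain_of_norm`: if `β ^ n` is a norm from the fixed points of `ker χ`, then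
  `kummerCup χ β` is the coboundary of an explicit `n`-torsion valued cochain;
* `exists_norm_of_kummerCup_eq_dOne`: conversely (given Hilbert 90 on `ker χ`).
-/

set_option autoImplicit false
set_option linter.unusedSectionVars false

namespace Fermat.Agent.CFT.Cyclic

open groupCohomology

variable {G : Type*} [Group G] {A : Type*} [CommGroup A] [MulDistribMulAction G A]
variable {n : ℕ} [NeZero n]

/-- The cup product of an additive character `χ : G → ZMod n` with the Kummer cocycle of `β`. -/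
def kummerCup (χ : G → ZMod n) (β : A) : G × G → A :=
  fun x => (x.1 • (x.2 • β / β)) ^ (χ x.1).val

lemma kummerCup_apply (χ : G → ZMod n) (β : A) (σ τ : G) :
    kummerCup χ β (σ, τ) = (σ • (τ • β / β)) ^ (χ σ).val := rfl

/-- The auxiliary cochain `σ ↦ (σ • β) ^ (χ σ).val`. -/
def kummerAux (χ : G → ZMod n) (β : A) : G → A := fun σ => (σ • β) ^ (χ σ).val

lemma kummerAux_apply (χ : G → ZMod n) (β : A) (σ : G) :
    kummerAux χ β σ = (σ • β) ^ (χ σ).val := rfl

lemma kummerAux_of_map_eq_zero (χ : G → ZMod n) (β : A) {σ : G} (h : χ σ = 0) :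
    kummerAux χ β σ = 1 := by
  rw [kummerAux_apply, h, ZMod.val_zero, pow_zero]

variable {χ : G → ZMod n} (hχ : ∀ σ τ, χ (σ * τ) = χ σ + χ τ)
include hχ

/-- (K1) The Bockstein identity `χ ∪ δ(b) = δ'(χ) ∪ b - d(χ̃ ∪ β)` on cochains. -/
theorem kummerCup_eq {β : A} (hb : ∀ σ : G, σ • β ^ n = β ^ n) (σ τ : G) :
    kummerCup χ β (σ, τ) = carry χ (β ^ n) (σ, τ) / dOne (kummerAux χ β) (σ, τ) := by
  rw [kummerCup_apply, carry_apply, dOne_apply, kummerAux_apply, kummerAux_apply, kummerAux_apply,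
    hχ, smul_div', smul_pow', ← mul_smul]
  have hbσ : β ^ n = ((σ * τ) • β) ^ n := by rw [← smul_pow', hb]
  rw [hbσ]
  set X := σ • β
  set Y := (σ * τ) • β
  have key : Y ^ (χ σ).val * Y ^ (χ τ).val = Y ^ (χ σ + χ τ).val * (Y ^ n) ^ carryNat (χ σ) (χ τ) := by
    rw [← pow_add, ← pow_mul, ← pow_add, val_add_val_eq]
  rw [div_pow, eq_div_iff_mul_eq']
  have : (Y ^ n) ^ carryNat (χ σ) (χ τ) = Y ^ (χ σ).val * Y ^ (χ τ).val / Y ^ (χ σ + χ τ).val := by
    rw [key, mul_div_cancel_left]
  rw [this]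
  apply Additive.ofMul.injective
  simp only [ofMul_mul, ofMul_div]
  abel

/-- The norm `∏_{k<n} s^k • c` of a `ker χ`-fixed element (with `χ s = 1`) is `G`-fixed. -/
lemma smul_norm_eq {s : G} (hs : χ s = 1) {c : A} (hc : ∀ h, χ h = 0 → h • c = c) (σ : G) :
    σ • (∏ k ∈ Finset.range n, s ^ k • c) = ∏ k ∈ Finset.range n, s ^ k • c := by
  have hper : ∀ j, (fun k => s ^ k • c) (j + n) = (fun k => s ^ k • c) j := by
    intro j
    exact smul_eq_of_map_eq hχ hc (by
      rw [map_pow_eq hχ, map_pow_eq hχ, hs]; push_cast; rw [ZMod.natCast_self, add_zero])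
  rw [Finset.smul_prod', ← prod_range_shift_of_periodic (fun k => s ^ k • c) n hper (χ σ).val]
  refine Finset.prod_congr rfl fun k _ => ?_
  rw [← mul_smul]
  exact smul_eq_of_map_eq hχ hc (by
    rw [hχ, map_pow_eq hχ, map_pow_eq hχ, hs]; push_cast
    rw [ZMod.natCast_zmod_val]; ring)

/-- (K2, ⇐) If `β ^ n` is the norm of a `ker χ`-fixed `c`, Hilbert 90 holds for the cyclic quotient
on the `ker χ`-fixed points, and `A` has `n`-th roots, then `kummerCup χ β` is the coboundary of
an explicit cochain `h` with values in the `n`-torsion of `A`. -/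
theorem exists_torsion_cochain_of_norm {s : G} (hs : χ s = 1) {β c : A}
    (hc : ∀ h, χ h = 0 → h • c = c) (hN : β ^ n = ∏ k ∈ Finset.range n, s ^ k • c)
    (h90 : ∀ x : A, (∀ h, χ h = 0 → h • x = x) → ∏ k ∈ Finset.range n, s ^ k • x = 1 →
      ∃ y : A, (∀ h, χ h = 0 → h • y = y) ∧ x = s • y / y)
    (hroot : ∀ y : A, ∃ η : A, η ^ n = y) :
    ∃ (η : A) (h : G → A), (∀ σ, h σ ^ n = 1) ∧
      (∀ σ τ, dOne h (σ, τ) = kummerCup χ β (σ, τ)) ∧
      ∀ σ, h σ = normCochain χ s c σ * η / (kummerAux χ β σ * σ • η) := by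
  have hbfix : ∀ σ : G, σ • β ^ n = β ^ n := by
    intro σ; rw [hN]; exact smul_norm_eq hχ hs hc σ
  set x : A := c ^ n / β ^ n with hx
  have hxfix : ∀ h, χ h = 0 → h • x = x := by
    intro h hh
    rw [hx, smul_div', smul_pow', hc h hh, hbfix]
  have hxN : ∏ k ∈ Finset.range n, s ^ k • x = 1 := by
    simp only [hx, smul_div', smul_pow', hbfix]
    rw [Finset.prod_div_distrib, Finset.prod_pow, ← hN, Finset.prod_const, Finset.card_range,
      div_self']
  obtain ⟨y, hyfix, hxy⟩ := h90 x hxfix hxN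
  obtain ⟨η, hη⟩ := hroot y
  have hcn : c ^ n = x * β ^ n := by rw [hx, div_mul_cancel]
  refine ⟨η, fun σ => normCochain χ s c σ * η / (kummerAux χ β σ * σ • η), ?_, ?_, fun σ => rfl⟩
  · intro σ
    have hg : normCochain χ s c σ ^ n = (σ • y / y) * (β ^ n) ^ (χ σ).val := by
      rw [normCochain_apply, ← Finset.prod_pow]
      have h1 : ∀ k ∈ Finset.range (χ σ).val,
          (s ^ k • c) ^ n = (s ^ (k + 1) • y / s ^ k • y) * β ^ n := by
        intro k _
        rw [← smul_pow', hcn, smul_mul', hbfix, hxy, smul_div', ← mul_smul, ← pow_succ]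
      rw [Finset.prod_congr rfl h1, Finset.prod_mul_distrib,
        Finset.prod_range_div (fun k => s ^ k • y), Finset.prod_const, Finset.card_range,
        pow_zero, one_smul]
      congr 2
      exact smul_eq_of_map_eq hχ hyfix (by
        rw [map_pow_eq hχ, hs, mul_one, ZMod.natCast_zmod_val])
    have hw : kummerAux χ β σ ^ n = (β ^ n) ^ (χ σ).val := by
      rw [kummerAux_apply, ← pow_mul, mul_comm, pow_mul, ← smul_pow', hbfix]
    rw [div_pow, mul_pow, mul_pow, hg, hw, hη, ← smul_pow', hη]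
    apply Additive.ofMul.injective
    simp only [ofMul_mul, ofMul_div, ofMul_one]
    abel
  · intro σ τ
    have hform : (fun σ => normCochain χ s c σ * η / (kummerAux χ β σ * σ • η))
        = normCochain χ s c / kummerAux χ β * (fun σ => η / σ • η) := by
      funext σ
      simp only [Pi.mul_apply, Pi.div_apply]
      rw [div_mul_div_comm]
    have ht : dOne (fun σ : G => η / σ • η) (σ, τ) = 1 := by
      rw [dOne_apply]
      simp only [smul_div', mul_smul]
      apply Additive.ofMul.injective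
      simp only [ofMul_mul, ofMul_div, ofMul_one]
      abel
    rw [hform, dOne_mul, dOne_div, ht, mul_one, ← carry_eq_dOne_of_norm hχ hs hc, ← hN,
      kummerCup_eq hχ hbfix]

/-- (K2, ⇒) If `kummerCup χ β` is the coboundary of a cochain `h` whose restriction to `ker χ` is
a coboundary (Hilbert 90 on the kernel), then `β ^ n` is a norm from the `ker χ`-fixed points. -/
theorem exists_norm_of_kummerCup_eq_dOne {β : A} (hb : ∀ σ : G, σ • β ^ n = β ^ n) {h : G → A}
    (hh : ∀ σ τ, dOne h (σ, τ) = kummerCup χ β (σ, τ)) {γ : A}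
    (hγ : ∀ τ, χ τ = 0 → h τ = τ • γ / γ) {s : G} (hs : χ s = 1) :
    ∃ c : A, (∀ h, χ h = 0 → h • c = c) ∧ β ^ n = ∏ k ∈ Finset.range n, s ^ k • c :=
  exists_norm_of_carry_eq_dOne hχ hb (u := h * kummerAux χ β)
    (by
      funext ⟨σ, τ⟩
      rw [dOne_mul, hh, kummerCup_eq hχ hb, div_mul_cancel])
    (fun τ hτ => by rw [Pi.mul_apply, kummerAux_of_map_eq_zero χ β hτ, mul_one, hγ τ hτ]) hs

end Fermat.Agent.CFT.Cyclic
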