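import Mathlib

/-!
# Cyclic symbols on explicit inhomogeneous cocycles: the carry cocycle

`G` a group acting on a commutative group `A`, `χ : G → ZMod n` additive.  The *carry cocycle*
`carry χ b (σ, τ) = b` if `(χ σ).val + (χ τ).val ≥ n` and `1` otherwise is the cup product of the
Bockstein of `χ` with a `G`-fixed `b`.  We prove:

* `isMulCocycle₂_carry`: it is a 2-cocycle;
* `carry_eq_coboundary_of_norm`: it is the coboundary of an explicit cochain if `b` is a norm from
  the fixed points of `ker χ`;
* `exists_norm_of_carry_eq_coboundary`: conversely (given Hilbert 90 on the kernel);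
* `exists_carry_of_isMulCocycle₂`: for a finite cyclic group every 2-cocycle is a carry cocycle
  times a coboundary.
-/

set_option autoImplicit false
set_option linter.unusedSectionVars false

namespace Fermat.Agent.CFT.Cyclic

open groupCohomology

section carryNat

variable {n : ℕ} [NeZero n]

/-- The carry of the addition of representatives in `ZMod n`. -/
def carryNat (x y : ZMod n) : ℕ := if n ≤ x.val + y.val then 1 else 0

lemma val_add_val_eq (x y : ZMod n) : x.val + y.val = (x + y).val + n * carryNat x y := by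
  unfold carryNat
  split_ifs with h
  · rw [mul_one]; exact ZMod.val_add_val_of_le h
  · rw [mul_zero, add_zero]; exact (ZMod.val_add_of_lt (not_le.mp h)).symm

lemma carryNat_assoc (x y z : ZMod n) :
    carryNat (x + y) z + carryNat x y = carryNat y z + carryNat x (y + z) := by
  have h1 := val_add_val_eq (x + y) z
  have h2 := val_add_val_eq x y
  have h3 := val_add_val_eq y z
  have h4 := val_add_val_eq x (y + z)
  rw [add_assoc] at h1
  have hn : 0 < n := Nat.pos_of_ne_zero (NeZero.ne n)
  have : n * (carryNat (x + y) z + carryNat x y) = n * (carryNat y z + carryNat x (y + z)) := by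
    rw [mul_add, mul_add]; omega
  exact Nat.eq_of_mul_eq_mul_left hn this

@[simp] lemma carryNat_zero_left (y : ZMod n) : carryNat 0 y = 0 := by
  unfold carryNat
  rw [ZMod.val_zero, zero_add, if_neg (not_le.mpr (ZMod.val_lt y))]

@[simp] lemma carryNat_zero_right (x : ZMod n) : carryNat x 0 = 0 := by
  unfold carryNat
  rw [ZMod.val_zero, add_zero, if_neg (not_le.mpr (ZMod.val_lt x))]

end carryNat

variable {G : Type*} [Group G] {A : Type*} [CommGroup A] [MulDistribMulAction G A]
variable {n : ℕ} [NeZero n]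

/-- The carry cochain `(σ, τ) ↦ b ^ [n ≤ (χ σ).val + (χ τ).val]`. -/
def carry (χ : G → ZMod n) (b : A) : G × G → A := fun x => b ^ carryNat (χ x.1) (χ x.2)

lemma carry_apply (χ : G → ZMod n) (b : A) (σ τ : G) :
    carry χ b (σ, τ) = b ^ carryNat (χ σ) (χ τ) := rfl

lemma carry_of_lt (χ : G → ZMod n) (b : A) {σ τ : G} (h : (χ σ).val + (χ τ).val < n) :
    carry χ b (σ, τ) = 1 := by
  rw [carry_apply, carryNat, if_neg (not_le.mpr h), pow_zero]

lemma carry_of_le (χ : G → ZMod n) (b : A) {σ τ : G} (h : n ≤ (χ σ).val + (χ τ).val) :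
    carry χ b (σ, τ) = b := by
  rw [carry_apply, carryNat, if_pos h, pow_one]

lemma carry_of_left_eq_zero (χ : G → ZMod n) (b : A) {σ : G} (τ : G) (h : χ σ = 0) :
    carry χ b (σ, τ) = 1 := by
  rw [carry_apply, h, carryNat_zero_left, pow_zero]

lemma carry_of_right_eq_zero (χ : G → ZMod n) (b : A) (σ : G) {τ : G} (h : χ τ = 0) :
    carry χ b (σ, τ) = 1 := by
  rw [carry_apply, h, carryNat_zero_right, pow_zero]

/-- (C1) The carry cochain of a `G`-fixed element is a 2-cocycle. -/
theorem isMulCocycle₂_carry {χ : G → ZMod n} (hχ : ∀ σ τ, χ (σ * τ) = χ σ + χ τ) {b : A}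
    (hb : ∀ σ : G, σ • b = b) : IsMulCocycle₂ (carry χ b) := by
  intro g h j
  simp only [carry_apply, hχ, smul_pow', hb, ← pow_add]
  rw [carryNat_assoc]

/-- The coboundary of a 1-cochain, in Mathlib's convention for `IsMulCoboundary₂`. -/
def dOne (u : G → A) : G × G → A := fun x => x.1 • u x.2 / u (x.1 * x.2) * u x.1

lemma dOne_apply (u : G → A) (σ τ : G) : dOne u (σ, τ) = σ • u τ / u (σ * τ) * u σ := rfl

lemma isMulCoboundary₂_iff (f : G × G → A) : IsMulCoboundary₂ f ↔ ∃ u : G → A, f = dOne u := by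
  constructor
  · rintro ⟨u, hu⟩
    exact ⟨u, funext fun ⟨g, h⟩ => (hu g h).symm⟩
  · rintro ⟨u, rfl⟩
    exact ⟨u, fun g h => rfl⟩

lemma isMulCocycle₂_dOne (u : G → A) : IsMulCocycle₂ (dOne u) := by
  intro g h j
  simp only [dOne_apply, smul_mul', smul_div', mul_smul, mul_assoc]
  apply Additive.ofMul.injective
  simp only [ofMul_mul, ofMul_div]
  abel

lemma prod_range_shift_of_periodic {M : Type*} [CommGroup M] (e : ℕ → M) (m : ℕ)
    (he : ∀ j, e (j + m) = e j) (r : ℕ) :
    ∏ k ∈ Finset.range m, e (r + k) = ∏ k ∈ Finset.range m, e k := by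
  induction r with
  | zero => simp
  | succ r ih =>
    have h1 : ∏ k ∈ Finset.range (m + 1), e (r + k)
        = (∏ k ∈ Finset.range m, e (r + k)) * e (r + m) := Finset.prod_range_succ _ _
    have h2 : ∏ k ∈ Finset.range (m + 1), e (r + k)
        = (∏ k ∈ Finset.range m, e (r + (k + 1))) * e (r + 0) := Finset.prod_range_succ' _ _
    rw [h1, he, ih, add_zero] at h2
    rw [mul_right_cancel h2]
    refine Finset.prod_congr rfl fun k _ => ?_
    congr 1; omega

section hom

variable {χ : G → ZMod n} (hχ : ∀ σ τ, χ (σ * τ) = χ σ + χ τ)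
include hχ

lemma map_one_eq_zero : χ 1 = 0 := by
  have := hχ 1 1
  rw [mul_one] at this
  exact left_eq_add.mp this

lemma map_inv_eq_neg (σ : G) : χ σ⁻¹ = - χ σ := by
  have := hχ σ σ⁻¹
  rw [mul_inv_cancel, map_one_eq_zero hχ] at this
  exact eq_neg_of_add_eq_zero_right this.symm

lemma map_pow_eq (σ : G) (k : ℕ) : χ (σ ^ k) = k * χ σ := by
  induction k with
  | zero => simp [map_one_eq_zero hχ]
  | succ k ih => rw [pow_succ, hχ, ih]; push_cast; ring

lemma map_pow_self_eq_zero (σ : G) : χ (σ ^ n) = 0 := by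
  rw [map_pow_eq hχ, ZMod.natCast_self, zero_mul]

/-- Elements with the same image under `χ` act in the same way on a `ker χ`-fixed element. -/
lemma smul_eq_of_map_eq {c : A} (hc : ∀ h, χ h = 0 → h • c = c) {x y : G} (h : χ x = χ y) :
    x • c = y • c := by
  have hx : x = y * (y⁻¹ * x) := by group
  rw [hx, mul_smul, hc _ (by rw [hχ, map_inv_eq_neg hχ, h, neg_add_cancel])]

/-- The explicit 1-cochain whose coboundary is the carry cocycle of a norm. -/
def normCochain (χ : G → ZMod n) (s : G) (c : A) : G → A :=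
  fun τ => ∏ k ∈ Finset.range (χ τ).val, s ^ k • c

omit hχ in
lemma normCochain_apply (s : G) (c : A) (τ : G) :
    normCochain χ s c τ = ∏ k ∈ Finset.range (χ τ).val, s ^ k • c := rfl

omit hχ in
lemma normCochain_eq_of_map_eq (s : G) (c : A) {σ τ : G} (h : χ σ = χ τ) :
    normCochain χ s c σ = normCochain χ s c τ := by
  rw [normCochain_apply, normCochain_apply, h]

lemma smul_normCochain_of_map_eq_zero {s : G} {c : A} (hc : ∀ h, χ h = 0 → h • c = c)
    {h : G} (hh : χ h = 0) (τ : G) : h • normCochain χ s c τ = normCochain χ s c τ := by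
  rw [normCochain_apply, Finset.smul_prod']
  refine Finset.prod_congr rfl fun k _ => ?_
  rw [← mul_smul]
  exact smul_eq_of_map_eq hχ hc (by rw [hχ, hh, zero_add])

/-- (C2) The carry cocycle of a norm `∏_{k<n} s^k • c` (with `χ s = 1`, `c` fixed by `ker χ`) is the
coboundary of the explicit cochain `normCochain χ s c`. -/
theorem carry_eq_dOne_of_norm {s : G} (hs : χ s = 1) {c : A} (hc : ∀ h, χ h = 0 → h • c = c) :
    carry χ (∏ k ∈ Finset.range n, s ^ k • c) = dOne (normCochain χ s c) := by
  funext ⟨σ, τ⟩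
  set e : ℕ → A := fun k => s ^ k • c with he
  have hper : ∀ j, e (j + n) = e j := by
    intro j
    simp only [he]
    exact smul_eq_of_map_eq hχ hc (by
      rw [map_pow_eq hχ, map_pow_eq hχ, hs]; push_cast; rw [ZMod.natCast_self, add_zero])
  have hσ : σ • normCochain χ s c τ = ∏ k ∈ Finset.range (χ τ).val, e ((χ σ).val + k) := by
    rw [normCochain_apply, Finset.smul_prod']
    refine Finset.prod_congr rfl fun k _ => ?_
    simp only [he]
    rw [← mul_smul]
    exact smul_eq_of_map_eq hχ hc (by
      rw [hχ, map_pow_eq hχ, map_pow_eq hχ, hs]; push_cast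
      rw [ZMod.natCast_zmod_val]; ring)
  rw [dOne_apply, hσ, carry_apply]
  have hsplit : (∏ k ∈ Finset.range (χ τ).val, e ((χ σ).val + k)) * normCochain χ s c σ
      = ∏ k ∈ Finset.range ((χ σ).val + (χ τ).val), e k := by
    rw [Finset.prod_range_add, mul_comm]; rfl
  rw [div_mul_eq_mul_div, hsplit, normCochain_apply, hχ, val_add_val_eq (χ σ) (χ τ)]
  rw [eq_div_iff_mul_eq'']
  unfold carryNat
  split_ifs with h
  · rw [mul_one, pow_one, Finset.prod_range_add, prod_range_shift_of_periodic e n hper]
  · rw [mul_zero, add_zero, pow_zero, mul_one]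

/-- (C3) If the carry cocycle of a `G`-fixed `b` is the coboundary of a cochain `u` whose
restriction to `ker χ` is a coboundary (Hilbert 90 on the kernel), then `b` is a norm from the
fixed points of `ker χ`. -/
theorem exists_norm_of_carry_eq_dOne {b : A} (hb : ∀ σ : G, σ • b = b) {u : G → A}
    (hu : carry χ b = dOne u) {γ : A} (hγ : ∀ h, χ h = 0 → u h = h • γ / γ) {s : G}
    (hs : χ s = 1) :
    ∃ c : A, (∀ h, χ h = 0 → h • c = c) ∧ b = ∏ k ∈ Finset.range n, s ^ k • c := by
  by_cases hn : n = 1
  · subst hn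
    exact ⟨b, fun h _ => hb h, by simp⟩
  have hn2 : 2 ≤ n := by have := NeZero.ne n; omega
  set u' : G → A := fun σ => u σ * γ / σ • γ with hu'
  have hdu' : ∀ σ τ, σ • u' τ / u' (σ * τ) * u' σ = carry χ b (σ, τ) := by
    intro σ τ
    rw [hu, dOne_apply]
    simp only [hu', smul_div', smul_mul', mul_smul]
    apply Additive.ofMul.injective
    simp only [ofMul_mul, ofMul_div]
    abel
  have hker : ∀ h, χ h = 0 → u' h = 1 := by
    intro h hh
    simp only [hu', hγ h hh]
    apply Additive.ofMul.injective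
    simp only [ofMul_mul, ofMul_div, ofMul_one]
    abel
  refine ⟨u' s, ?_, ?_⟩
  · intro h hh
    have h1 := hdu' h s
    rw [carry_of_left_eq_zero χ b s hh, hker h hh, mul_one, div_eq_one] at h1
    have hh' : χ (s⁻¹ * h * s) = 0 := by rw [hχ, hχ, map_inv_eq_neg hχ, hh]; ring
    have h2 := hdu' s (s⁻¹ * h * s)
    have h3 : s * (s⁻¹ * h * s) = h * s := by group
    rw [carry_of_right_eq_zero χ b s hh', hker _ hh', smul_one, one_div, inv_mul_eq_one, h3] at h2
    rw [h1, h2]
  · have hk : ∀ k : ℕ, s ^ k • u' s = carry χ b (s ^ k, s) * (u' (s ^ (k + 1)) / u' (s ^ k)) := by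
      intro k
      have := hdu' (s ^ k) s
      rw [← pow_succ] at this
      rw [← this]
      apply Additive.ofMul.injective
      simp only [ofMul_mul, ofMul_div]
      abel
    rw [Finset.prod_congr rfl fun k _ => hk k, Finset.prod_mul_distrib,
      Finset.prod_range_div (fun k => u' (s ^ k)), pow_zero,
      hker _ (map_pow_self_eq_zero hχ s), hker 1 (map_one_eq_zero hχ), div_one, mul_one]
    have hc : ∀ k ∈ Finset.range n, carry χ b (s ^ k, s) = if k = n - 1 then b else 1 := by
      intro k hk
      rw [Finset.mem_range] at hk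
      have hv : (χ (s ^ k)).val = k := by
        rw [map_pow_eq hχ, hs, mul_one, ZMod.val_cast_of_lt hk]
      have hv1 : (χ s).val = 1 := by rw [hs]; exact ZMod.val_one'' hn
      split_ifs with h
      · exact carry_of_le χ b (by rw [hv, hv1]; omega)
      · exact carry_of_lt χ b (by rw [hv, hv1]; omega)
    rw [Finset.prod_congr rfl hc, Finset.prod_ite_eq' (Finset.range n) (n - 1) (fun _ => b),
      if_pos (Finset.mem_range.mpr (by omega))]

end hom

lemma dOne_mul (u v : G → A) (x : G × G) : dOne (u * v) x = dOne u x * dOne v x := by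
  obtain ⟨σ, τ⟩ := x
  simp only [dOne_apply, Pi.mul_apply, smul_mul']
  apply Additive.ofMul.injective
  simp only [ofMul_mul, ofMul_div]
  abel

lemma dOne_div (u v : G → A) (x : G × G) : dOne (u / v) x = dOne u x / dOne v x := by
  obtain ⟨σ, τ⟩ := x
  simp only [dOne_apply, Pi.div_apply, smul_div']
  apply Additive.ofMul.injective
  simp only [ofMul_mul, ofMul_div]
  abel

section cyclic

variable {χ : G → ZMod n} (hχ : ∀ σ τ, χ (σ * τ) = χ σ + χ τ) (hinj : Function.Injective χ)
include hχ hinj

lemma pow_card_eq_one_of_injective (σ : G) : σ ^ n = 1 :=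
  hinj (by rw [map_pow_self_eq_zero hχ, map_one_eq_zero hχ])

lemma eq_pow_val_of_injective {s : G} (hs : χ s = 1) (σ : G) : σ = s ^ (χ σ).val :=
  hinj (by rw [map_pow_eq hχ, hs, mul_one, ZMod.natCast_zmod_val])

/-- The invariant `∏_{k<n} f (s^k, s)` of a 2-cocycle on a cyclic group is fixed by the group. -/
lemma smul_prod_eq_of_isMulCocycle₂ {s : G} (hs : χ s = 1) {f : G × G → A}
    (hf : IsMulCocycle₂ f) (σ : G) :
    σ • (∏ k ∈ Finset.range n, f (s ^ k, s)) = ∏ k ∈ Finset.range n, f (s ^ k, s) := by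
  have hsn : s ^ n = 1 := pow_card_eq_one_of_injective hχ hinj s
  have key : s • (∏ k ∈ Finset.range n, f (s ^ k, s)) = ∏ k ∈ Finset.range n, f (s ^ k, s) := by
    have h1 : ∀ k : ℕ, f (s ^ (1 + k), s) * f (s, s ^ k) = s • f (s ^ k, s) * f (s, s ^ (1 + k)) := by
      intro k
      have := hf s (s ^ k) s
      rw [← pow_succ', ← pow_succ] at this
      rw [add_comm 1 k]; exact this
    have h2 := Finset.prod_congr (s₁ := Finset.range n) rfl fun k _ => h1 k
    rw [Finset.prod_mul_distrib, Finset.prod_mul_distrib,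
      prod_range_shift_of_periodic (fun k => f (s ^ k, s)) n
        (fun j => by simp only [pow_add, hsn, mul_one]) 1,
      prod_range_shift_of_periodic (fun k => f (s, s ^ k)) n
        (fun j => by simp only [pow_add, hsn, mul_one]) 1, ← Finset.smul_prod'] at h2
    exact (mul_right_cancel h2).symm
  rw [eq_pow_val_of_injective hχ hinj hs σ]
  generalize (χ σ).val = m
  induction m with
  | zero => rw [pow_zero, one_smul]
  | succ m ih => rw [pow_succ, mul_smul, key, ih]

/-- (C4) On a finite cyclic group (`χ` an injective character to `ZMod n`, `χ s = 1`), every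
2-cocycle is the carry cocycle of its invariant `∏_{k<n} f (s^k, s)` times a coboundary. -/
theorem exists_carry_of_isMulCocycle₂ {s : G} (hs : χ s = 1) {f : G × G → A}
    (hf : IsMulCocycle₂ f) :
    ∃ u : G → A, ∀ σ τ, f (σ, τ) = carry χ (∏ k ∈ Finset.range n, f (s ^ k, s)) (σ, τ) * dOne u (σ, τ) := by
  set b : A := ∏ k ∈ Finset.range n, f (s ^ k, s) with hb
  have hbfix : ∀ σ : G, σ • b = b := smul_prod_eq_of_isMulCocycle₂ hχ hinj hs hf
  set u : G → A := fun σ => f (1, 1) / ∏ k ∈ Finset.range (χ σ).val, f (s ^ k, s) with hu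
  refine ⟨u, ?_⟩
  have hsn : s ^ n = 1 := pow_card_eq_one_of_injective hχ hinj s
  have hu1 : u 1 = f (1, 1) := by
    simp only [hu, map_one_eq_zero hχ, ZMod.val_zero, Finset.range_zero, Finset.prod_empty, div_one]
  by_cases hn : n = 1
  · subst hn
    intro σ τ
    have hσ : σ = 1 := hinj (Subsingleton.elim _ _)
    have hτ : τ = 1 := hinj (Subsingleton.elim _ _)
    subst hσ hτ
    rw [carry_of_left_eq_zero χ b 1 (map_one_eq_zero hχ), one_mul, dOne_apply, one_smul, mul_one,
      div_self', one_mul, hu1]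
  have hn2 : 2 ≤ n := by have := NeZero.ne n; omega
  have hv1 : (χ s).val = 1 := by rw [hs]; exact ZMod.val_one'' hn
  have hus : u s = 1 := by
    simp only [hu, hv1, Finset.prod_range_one, pow_zero]
    rw [map_one_fst_of_isMulCocycle₂ hf s, div_self']
  set F : G × G → A := fun x => carry χ b x * dOne u x with hF
  have hFc : IsMulCocycle₂ F := by
    intro g h j
    have h1 := isMulCocycle₂_carry hχ hbfix g h j
    have h2 := isMulCocycle₂_dOne u g h j
    simp only [hF, smul_mul']
    calc carry χ b (g * h, j) * dOne u (g * h, j) * (carry χ b (g, h) * dOne u (g, h))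
        = (carry χ b (g * h, j) * carry χ b (g, h)) * (dOne u (g * h, j) * dOne u (g, h)) := by
          rw [mul_mul_mul_comm]
      _ = _ := by rw [h1, h2, mul_mul_mul_comm]
  -- the column `τ = s`
  have hcol : ∀ σ, f (σ, s) = F (σ, s) := by
    intro σ
    have hσ := eq_pow_val_of_injective hχ hinj hs σ
    have hm : (χ σ).val < n := ZMod.val_lt _
    simp only [hF, dOne_apply, hus, smul_one, one_div]
    by_cases hlt : (χ σ).val + 1 < n
    · have hval : (χ (σ * s)).val = (χ σ).val + 1 := by
        rw [hχ, ZMod.val_add_of_lt (by rw [hv1]; exact hlt), hv1]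
      rw [carry_of_lt χ b (by rw [hv1]; exact hlt), one_mul]
      simp only [hu, hval, Finset.prod_range_succ]
      rw [← hσ]
      apply Additive.ofMul.injective
      simp only [ofMul_mul, ofMul_div, ofMul_inv]
      abel
    · have hmn : (χ σ).val + 1 = n := by omega
      have hσs : σ * s = 1 := by
        conv_lhs => rw [hσ]
        rw [← pow_succ, hmn, hsn]
      rw [carry_of_le χ b (by rw [hv1]; omega), hσs, hu1]
      have hbsplit : b = (∏ k ∈ Finset.range (χ σ).val, f (s ^ k, s)) * f (σ, s) := by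
        rw [hb]
        conv_lhs => rw [← hmn]
        rw [Finset.prod_range_succ, ← hσ]
      simp only [hu]
      rw [hbsplit]
      apply Additive.ofMul.injective
      simp only [ofMul_mul, ofMul_div, ofMul_inv]
      abel
  -- induction on the second variable
  have hall : ∀ m : ℕ, ∀ σ, f (σ, s ^ m) = F (σ, s ^ m) := by
    intro m
    induction m with
    | zero =>
      intro σ
      rw [pow_zero, map_one_snd_of_isMulCocycle₂ hf, map_one_snd_of_isMulCocycle₂ hFc]
      simp only [hF, dOne_apply, one_smul, mul_one, div_self', one_mul, hu1]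
      rw [carry_of_left_eq_zero χ b 1 (map_one_eq_zero hχ), one_mul]
    | succ m ih =>
      intro σ
      have e1 := hf σ (s ^ m) s
      have e2 := hFc σ (s ^ m) s
      rw [hcol, ih, hcol] at e1
      rw [pow_succ]
      exact mul_left_cancel (e1.symm.trans e2)
  intro σ τ
  rw [eq_pow_val_of_injective hχ hinj hs τ]
  exact hall _ σ

/-- (C4') On a finite cyclic group a 2-cocycle is a coboundary iff its invariant
`∏_{k<n} f (s^k, s)` is a norm. -/
theorem isMulCoboundary₂_iff_norm {s : G} (hs : χ s = 1) {f : G × G → A}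
    (hf : IsMulCocycle₂ f) :
    IsMulCoboundary₂ f ↔
      ∃ c : A, ∏ k ∈ Finset.range n, f (s ^ k, s) = ∏ k ∈ Finset.range n, s ^ k • c := by
  obtain ⟨u, hu⟩ := exists_carry_of_isMulCocycle₂ hχ hinj hs hf
  have hker : ∀ h : G, χ h = 0 → h = 1 := fun h hh => hinj (by rw [hh, map_one_eq_zero hχ])
  constructor
  · rintro ⟨v, hv⟩
    have hcar : carry χ (∏ k ∈ Finset.range n, f (s ^ k, s)) = dOne (v / u) := by
      funext ⟨σ, τ⟩
      rw [dOne_div, eq_div_iff_mul_eq', ← hu σ τ, ← hv σ τ, dOne_apply]
    have h11 : (v / u) 1 = 1 := by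
      have := congrFun hcar (1, 1)
      rw [carry_of_left_eq_zero χ _ 1 (map_one_eq_zero hχ), dOne_apply, one_smul, mul_one,
        div_self', one_mul] at this
      exact this.symm
    obtain ⟨c, -, hc⟩ := exists_norm_of_carry_eq_dOne hχ
      (smul_prod_eq_of_isMulCocycle₂ hχ hinj hs hf) hcar (γ := 1)
      (fun h hh => by rw [hker h hh, h11, smul_one, div_one]) hs
    exact ⟨c, hc⟩
  · rintro ⟨c, hc⟩
    have hcfix : ∀ h, χ h = 0 → h • c = c := fun h hh => by rw [hker h hh, one_smul]
    refine ⟨normCochain χ s c * u, fun σ τ => ?_⟩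
    rw [hu σ τ, hc, carry_eq_dOne_of_norm hχ hs hcfix]
    exact (dOne_mul (normCochain χ s c) u (σ, τ))

end cyclic

end Fermat.Agent.CFT.Cyclic
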