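import Fermat.Agent.CFT.Cyclic.Kummer

/-!
# Cyclic symbols in Galois groups

* `exists_smul_div_eq_of_levelConstant`: Hilbert 90 for level-constant 1-cocycles on any subgroup
  of `Gal(Ω/K)` with values in `Ωˣ` (no Galois hypothesis on `Ω/K`).
-/

set_option autoImplicit false
set_option linter.unusedSectionVars false
set_option linter.style.haveILetI false

namespace Fermat.Agent.CFT.Cyclic

open groupCohomology

section Hilbert90

variable {K Ω : Type*} [Field K] [Field Ω] [Algebra K Ω]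

/-- Restriction of an automorphism of `Ω` to an intermediate field, as an algebra map. -/
noncomputable def restrHom (F : IntermediateField K Ω) (t : Ω ≃ₐ[K] Ω) : F →ₐ[K] Ω :=
  (t : Ω →ₐ[K] Ω).comp F.val

lemma restrHom_apply (F : IntermediateField K Ω) (t : Ω ≃ₐ[K] Ω) (z : F) :
    restrHom F t z = t (z : Ω) := rfl

lemma restrHom_mul (F : IntermediateField K Ω) (g t : Ω ≃ₐ[K] Ω) :
    restrHom F (g * t) = (g : Ω →ₐ[K] Ω).comp (restrHom F t) := rfl

lemma restrHom_eq_iff (F : IntermediateField K Ω) (t t' : Ω ≃ₐ[K] Ω) :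
    restrHom F t = restrHom F t' ↔ t⁻¹ * t' ∈ F.fixingSubgroup := by
  rw [IntermediateField.mem_fixingSubgroup_iff]
  constructor
  · intro h x hx
    have := DFunLike.congr_fun h ⟨x, hx⟩
    simp only [restrHom_apply] at this
    rw [AlgEquiv.mul_apply, ← this]
    exact t.symm_apply_apply x
  · intro h
    ext ⟨x, hx⟩
    have := h x hx
    rw [AlgEquiv.mul_apply] at this
    simp only [restrHom_apply]
    have h2 := congrArg t this
    rw [show t (t⁻¹ (t' x)) = t' x from t.apply_symm_apply _] at h2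
    exact h2.symm

/-- **Hilbert 90 for level-constant cocycles.** Let `H` be a subgroup of `Gal(Ω/K)` and
`f : Gal(Ω/K) → Ωˣ` a 1-cocycle on `H` which is right-invariant under `H ∩ Fix(F)` for a finite
subextension `F`.  Then `f` is a coboundary on `H`. -/
theorem exists_smul_div_eq_of_levelConstant (H : Subgroup (Ω ≃ₐ[K] Ω)) (f : (Ω ≃ₐ[K] Ω) → Ωˣ)
    (hf : ∀ g ∈ H, ∀ h ∈ H, f (g * h) = g • f h * f g)
    (F : IntermediateField K Ω) [FiniteDimensional K F]
    (hF : ∀ g ∈ H, ∀ s ∈ H, s ∈ F.fixingSubgroup → f (g * s) = f g) :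
    ∃ x : Ωˣ, ∀ g ∈ H, g • x / x = f g := by
  classical
  letI : Fintype (F →ₐ[K] Ω) := Fintype.ofFinite _
  set R : Finset (F →ₐ[K] Ω) := Finset.univ.filter (fun ρ => ∃ t, t ∈ H ∧ restrHom F t = ρ) with hR
  set ft : (F →ₐ[K] Ω) → Ω := fun ρ =>
    if hρ : ∃ t, t ∈ H ∧ restrHom F t = ρ then (f hρ.choose : Ω) else 0 with hft
  have hft_restr : ∀ t ∈ H, ft (restrHom F t) = (f t : Ω) := by
    intro t ht
    have hρ : ∃ t', t' ∈ H ∧ restrHom F t' = restrHom F t := ⟨t, ht, rfl⟩
    simp only [hft, dif_pos hρ]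
    have h1 := hρ.choose_spec
    have h2 : t⁻¹ * hρ.choose ∈ F.fixingSubgroup := (restrHom_eq_iff F t _).1 h1.2.symm
    have h3 := hF t ht (t⁻¹ * hρ.choose) (H.mul_mem (H.inv_mem ht) h1.1) h2
    rw [mul_inv_cancel_left] at h3
    rw [h3]
  have hmemR : ∀ t ∈ H, restrHom F t ∈ R := fun t ht =>
    Finset.mem_filter.2 ⟨Finset.mem_univ _, t, ht, rfl⟩
  -- nonvanishing
  obtain ⟨z, hz⟩ : ∃ z : F, ∑ ρ ∈ R, ft ρ * ρ z ≠ 0 := by
    by_contra hcon
    push Not at hcon
    have hli : LinearIndependent Ω (fun ρ : F →ₐ[K] Ω => ((ρ : F →* Ω) : F → Ω)) :=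
      LinearIndependent.comp (linearIndependent_monoidHom F Ω) (fun ρ : F →ₐ[K] Ω => (ρ : F →* Ω))
        (fun x y h => by ext z; exact DFunLike.congr_fun h z)
    have h0 := linearIndependent_iff'.1 hli R ft (by
      funext z
      simp only [Finset.sum_apply, Pi.smul_apply, smul_eq_mul, Pi.zero_apply]
      exact hcon z) (restrHom F 1) (hmemR 1 H.one_mem)
    rw [hft_restr 1 H.one_mem] at h0
    exact Units.ne_zero _ h0
  refine ⟨(Units.mk0 _ hz)⁻¹, fun g hg => ?_⟩
  -- equivariance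
  have hequiv : g (∑ ρ ∈ R, ft ρ * ρ z) * (f g : Ω) = ∑ ρ ∈ R, ft ρ * ρ z := by
    rw [map_sum, Finset.sum_mul]
    refine Finset.sum_nbij' (fun ρ => (g : Ω →ₐ[K] Ω).comp ρ)
      (fun ρ => ((g⁻¹ : Ω ≃ₐ[K] Ω) : Ω →ₐ[K] Ω).comp ρ) ?_ ?_ ?_ ?_ ?_
    · intro ρ hρ
      obtain ⟨-, t, ht, rfl⟩ := Finset.mem_filter.1 hρ
      exact hmemR (g * t) (H.mul_mem hg ht)
    · intro ρ hρ
      obtain ⟨-, t, ht, rfl⟩ := Finset.mem_filter.1 hρ
      exact hmemR (g⁻¹ * t) (H.mul_mem (H.inv_mem hg) ht)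
    · intro ρ _
      ext x
      simp only [AlgHom.comp_apply, AlgEquiv.coe_toAlgHom]
      exact g.symm_apply_apply _
    · intro ρ _
      ext x
      simp only [AlgHom.comp_apply, AlgEquiv.coe_toAlgHom]
      exact g.apply_symm_apply _
    · intro ρ hρ
      obtain ⟨-, t, ht, rfl⟩ := Finset.mem_filter.1 hρ
      rw [← restrHom_mul, hft_restr t ht, hft_restr (g * t) (H.mul_mem hg ht), hf g hg t ht,
        map_mul]
      simp only [restrHom_apply, AlgEquiv.mul_apply, Units.val_mul, AlgEquiv.smul_units_def,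
        Units.coe_map, MonoidHom.coe_coe]
      ring
  rw [Units.ext_iff]
  simp only [AlgEquiv.smul_units_def, Units.val_div_eq_div_val, Units.coe_map, MonoidHom.coe_coe,
    Units.val_inv_eq_inv_val, Units.val_mk0, map_inv₀]
  have hgne : g (∑ ρ ∈ R, ft ρ * ρ z) ≠ 0 := by
    rw [Ne, map_eq_zero_iff g g.injective]; exact hz
  rw [inv_div_inv, div_eq_iff hgne, mul_comm]
  exact hequiv.symm

end Hilbert90

section Cyclic

variable {K Ω : Type} [Field K] [Field Ω] [Algebra K Ω] [IsGalois K Ω]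
variable (L : IntermediateField K Ω) [FiniteDimensional K L] [IsGalois K L]
variable {n : ℕ} [NeZero n] {χ : (Ω ≃ₐ[K] Ω) → ZMod n}
  (hχ : ∀ σ τ, χ (σ * τ) = χ σ + χ τ)
  (hker : ∀ g, χ g = 0 ↔ g ∈ L.fixingSubgroup)
  {s : Ω ≃ₐ[K] Ω} (hs : χ s = 1)

include hker in
/-- (b1) The fixed points of `ker χ = Fix(L)` on `Ωˣ` are the units lying in `L`. -/
lemma fixed_iff_mem (c : Ωˣ) : (∀ h, χ h = 0 → h • c = c) ↔ (c : Ω) ∈ L := by
  rw [← InfiniteGalois.fixedField_fixingSubgroup L, IntermediateField.mem_fixedField_iff]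
  constructor
  · intro h f hf
    have := h f ((hker f).2 hf)
    rw [Units.ext_iff] at this
    exact this
  · intro h f hf
    rw [Units.ext_iff]
    exact h f ((hker f).1 hf)

include hχ hker hs in
lemma restrict_pow_surj (τ : L ≃ₐ[K] L) :
    ∃ k < n, τ = (AlgEquiv.restrictNormalHom L s) ^ k := by
  obtain ⟨g, rfl⟩ := AlgEquiv.restrictNormalHom_surjective (F := K) (K₁ := L) Ω τ
  refine ⟨(χ g).val, ZMod.val_lt _, ?_⟩
  have hh : χ ((s ^ (χ g).val)⁻¹ * g) = 0 := by
    rw [hχ, map_inv_eq_neg hχ, map_pow_eq hχ, hs, mul_one, ZMod.natCast_zmod_val, neg_add_cancel]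
  have h1 : AlgEquiv.restrictNormalHom L ((s ^ (χ g).val)⁻¹ * g) = 1 :=
    (AlgEquiv.restrictNormal_eq_one_iff L _).2
      ((IntermediateField.mem_fixingSubgroup_iff L _).1 ((hker _).1 hh))
  rw [map_mul, map_inv, map_pow, inv_mul_eq_one] at h1
  exact h1.symm

include hχ hker hs in
lemma restrict_pow_inj {k j : ℕ} (hk : k < n) (hj : j < n)
    (h : (AlgEquiv.restrictNormalHom L s) ^ k = (AlgEquiv.restrictNormalHom L s) ^ j) : k = j := by
  have h1 : AlgEquiv.restrictNormalHom L ((s ^ j)⁻¹ * s ^ k) = 1 := by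
    rw [map_mul, map_inv, map_pow, map_pow, h, inv_mul_cancel]
  have h2 : χ ((s ^ j)⁻¹ * s ^ k) = 0 :=
    (hker _).2 ((IntermediateField.mem_fixingSubgroup_iff L _).2
      ((AlgEquiv.restrictNormal_eq_one_iff L _).1 h1))
  rw [hχ, map_inv_eq_neg hχ, map_pow_eq hχ, map_pow_eq hχ, hs, mul_one, mul_one,
    neg_add_eq_zero] at h2
  have := congrArg ZMod.val h2
  rwa [ZMod.val_cast_of_lt hj, ZMod.val_cast_of_lt hk, eq_comm] at this

include hχ hker hs in
/-- (b2) The abstract norm `∏_{k<n} s^k c` is the field norm of `L/K`. -/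
lemma prod_pow_apply_eq_norm (c : L) :
    ∏ k ∈ Finset.range n, (s ^ k) (c : Ω) = algebraMap K Ω (Algebra.norm K c) := by
  have h1 : algebraMap K Ω (Algebra.norm K c)
      = algebraMap L Ω (algebraMap K L (Algebra.norm K c)) := rfl
  rw [h1, Algebra.norm_eq_prod_automorphisms, map_prod]
  refine Finset.prod_nbij (fun k => (AlgEquiv.restrictNormalHom L s) ^ k)
    (fun _ _ => Finset.mem_univ _) ?_ ?_ ?_
  · intro k hk j hj h
    exact restrict_pow_inj L hχ hker hs (Finset.mem_range.1 hk) (Finset.mem_range.1 hj) h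
  · intro τ _
    obtain ⟨k, hk, rfl⟩ := restrict_pow_surj L hχ hker hs τ
    exact ⟨k, Finset.mem_coe.2 (Finset.mem_range.2 hk), rfl⟩
  · intro k _
    rw [← map_pow]
    exact (AlgEquiv.restrictNormalHom_apply L (s ^ k) c).symm

include hχ hker hs in
/-- (b3) Hilbert 90 for the cyclic extension `L/K`, in the shape needed by
`exists_torsion_cochain_of_norm`. -/
lemma hilbert90_cyclic (x : Ωˣ) (hx : ∀ h, χ h = 0 → h • x = x)
    (hN : ∏ k ∈ Finset.range n, s ^ k • x = 1) :
    ∃ y : Ωˣ, (∀ h, χ h = 0 → h • y = y) ∧ x = s • y / y := by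
  have hxL : (x : Ω) ∈ L := (fixed_iff_mem L hker x).1 hx
  set x' : L := ⟨x, hxL⟩ with hx'
  have hnorm : Algebra.norm K x' = 1 := by
    apply (algebraMap K Ω).injective
    rw [← prod_pow_apply_eq_norm L hχ hker hs x', map_one]
    have := congrArg (Units.val) hN
    simpa [AlgEquiv.smul_units_def] using this
  have hgen : ∀ τ, τ ∈ Subgroup.zpowers (AlgEquiv.restrictNormalHom L s) := by
    intro τ
    obtain ⟨k, -, rfl⟩ := restrict_pow_surj L hχ hker hs τ
    exact Subgroup.npow_mem_zpowers _ k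
  haveI : IsCyclic (L ≃ₐ[K] L) := ⟨⟨AlgEquiv.restrictNormalHom L s, hgen⟩⟩
  obtain ⟨y, hy⟩ := groupCohomology.exists_div_of_norm_eq_one hgen hnorm
  refine ⟨Units.map (algebraMap L Ω : L →* Ω) y⁻¹, ?_, ?_⟩
  · apply (fixed_iff_mem L hker _).2
    simp only [Units.coe_map, MonoidHom.coe_coe]
    exact (((y⁻¹ : Lˣ) : L)).2
  · rw [Units.ext_iff]
    have h2 := congrArg (algebraMap L Ω) hy
    rw [map_div₀, hx'] at h2
    have h3 : algebraMap L Ω ((AlgEquiv.restrictNormalHom L s) (y : L)) = s ((y : L) : Ω) :=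
      AlgEquiv.restrictNormalHom_apply L s (y : L)
    rw [h3] at h2
    simp only [AlgEquiv.smul_units_def, Units.val_div_eq_div_val, Units.coe_map,
      MonoidHom.coe_coe, Units.val_inv_eq_inv_val, map_inv₀]
    rw [inv_div_inv]
    exact h2.symm

include hχ hker hs in
/-- **Norm criterion for the Kummer cup product (Galois form).**  Let `Ω/K` be Galois with `Ω`
algebraically closed, `L/K` a finite cyclic subextension cut out by the additive character
`χ : Gal(Ω/K) → ZMod n` (`ker χ = Fix(L)`, `χ s = 1`), `b : K` and `β ^ n = b`.  Then the cup product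
`χ ∪ δ(b)` is the coboundary of a level-constant cochain with values in the `n`-th roots of unity
iff `b` is a norm from `L`. -/
theorem kummerCup_coboundary_iff_norm [IsAlgClosed Ω] (b : K) (β : Ωˣ)
    (hβ : (β : Ω) ^ n = algebraMap K Ω b) :
    (∃ h : (Ω ≃ₐ[K] Ω) → Ωˣ, (∀ σ, h σ ^ n = 1) ∧
      (∃ F : IntermediateField K Ω, FiniteDimensional K F ∧
        ∀ g, ∀ t ∈ F.fixingSubgroup, h (g * t) = h g) ∧
      ∀ σ τ, dOne h (σ, τ) = kummerCup χ β (σ, τ)) ↔
    b ∈ Set.range (Algebra.norm K : L → K) := by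
  have hb : ∀ σ : Ω ≃ₐ[K] Ω, σ • β ^ n = β ^ n := by
    intro σ
    rw [Units.ext_iff]
    simp only [AlgEquiv.smul_units_def, Units.coe_map, MonoidHom.coe_coe, Units.val_pow_eq_pow_val]
    rw [hβ, AlgEquiv.commutes]
  constructor
  · rintro ⟨h, -, ⟨F, hFfin, hF⟩, hh⟩
    have hcoc : ∀ g ∈ L.fixingSubgroup, ∀ t ∈ L.fixingSubgroup, h (g * t) = g • h t * h g := by
      intro g hg t _
      have h1 := hh g t
      rw [kummerCup_apply, (hker g).2 hg, ZMod.val_zero, pow_zero, dOne_apply] at h1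
      rw [div_mul_eq_mul_div, div_eq_one] at h1
      exact h1.symm
    obtain ⟨γ, hγ⟩ := exists_smul_div_eq_of_levelConstant L.fixingSubgroup h hcoc F
      (fun g _ t _ ht => hF g t ht)
    obtain ⟨c, hcfix, hc⟩ := exists_norm_of_kummerCup_eq_dOne hχ hb hh (γ := γ)
      (fun τ hτ => (hγ τ ((hker τ).1 hτ)).symm) hs
    have hcL : (c : Ω) ∈ L := (fixed_iff_mem L hker c).1 hcfix
    refine ⟨⟨c, hcL⟩, ?_⟩
    apply (algebraMap K Ω).injective
    rw [← prod_pow_apply_eq_norm L hχ hker hs ⟨c, hcL⟩, ← hβ]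
    have := congrArg Units.val hc
    simpa [AlgEquiv.smul_units_def] using this.symm
  · rintro ⟨c', hc'⟩
    have hc'0 : (c' : Ω) ≠ 0 := by
      intro h0
      have : c' = 0 := by exact_mod_cast h0
      rw [this, Algebra.norm_zero] at hc'
      rw [← hc', map_zero] at hβ
      exact (pow_ne_zero n β.ne_zero) hβ
    set c : Ωˣ := Units.mk0 (c' : Ω) hc'0 with hc
    have hcfix : ∀ h, χ h = 0 → h • c = c := (fixed_iff_mem L hker c).2 c'.2
    have hN : β ^ n = ∏ k ∈ Finset.range n, s ^ k • c := by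
      rw [Units.ext_iff]
      have h1 := prod_pow_apply_eq_norm L hχ hker hs c'
      rw [hc', ← hβ] at h1
      simp only [Units.val_pow_eq_pow_val, Units.coe_prod, AlgEquiv.smul_units_def, Units.coe_map,
        MonoidHom.coe_coe, hc, Units.val_mk0]
      rw [← h1]
    have hroot : ∀ y : Ωˣ, ∃ η : Ωˣ, η ^ n = y := by
      intro y
      obtain ⟨z, hz⟩ := IsAlgClosed.exists_pow_nat_eq (y : Ω) (NeZero.pos n)
      have hz0 : z ≠ 0 := by
        rintro rfl
        rw [zero_pow (NeZero.ne n)] at hz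
        exact y.ne_zero hz.symm
      exact ⟨Units.mk0 z hz0, by rw [Units.ext_iff]; simpa using hz⟩
    obtain ⟨η, h, hhn, hh, hform⟩ := exists_torsion_cochain_of_norm hχ hs hcfix hN
      (hilbert90_cyclic L hχ hker hs) hroot
    refine ⟨h, hhn, ⟨L ⊔ IntermediateField.adjoin K {(β : Ω), (η : Ω)}, ?_, ?_⟩, hh⟩
    · haveI : FiniteDimensional K (IntermediateField.adjoin K {(β : Ω), (η : Ω)}) :=
        IntermediateField.finiteDimensional_adjoin (fun x _ =>
          (Algebra.IsIntegral.isIntegral x))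
      exact IntermediateField.finiteDimensional_sup _ _
    · intro g t ht
      rw [IntermediateField.mem_fixingSubgroup_iff] at ht
      have htL : χ t = 0 := (hker t).2 ((IntermediateField.mem_fixingSubgroup_iff L t).2
        (fun x hx => ht x ((le_sup_left : L ≤ _) hx)))
      have htβ : t • β = β := by
        rw [Units.ext_iff]
        exact ht _ ((le_sup_right : _ ≤ L ⊔ _)
          (IntermediateField.subset_adjoin K _ (Set.mem_insert _ _)))
      have htη : t • η = η := by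
        rw [Units.ext_iff]
        exact ht _ ((le_sup_right : _ ≤ L ⊔ _)
          (IntermediateField.subset_adjoin K _ (Set.mem_insert_of_mem _ rfl)))
      have hχgt : χ (g * t) = χ g := by rw [hχ, htL, add_zero]
      rw [hform, hform, normCochain_eq_of_map_eq s c hχgt, kummerAux_apply, kummerAux_apply, hχgt,
        mul_smul g t β, htβ, mul_smul g t η, htη]

end Cyclic

end Fermat.Agent.CFT.Cyclic
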