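import Fermat.Agent.CFT.Cyclic.Kummer
import Fermat.Agent.CFT.LC.Basic

/-!
# Cyclic symbols: inflation–restriction in degree 2 for a cyclic quotient, on cochains

`G` acts on a commutative group `A`, `χ : G → ZMod n` is additive with `χ s = 1`, `N = ker χ`.
Cochains are level-constant with respect to a level basis `𝒩` (helper275's `LC.LevelBasis`), `A`
is smooth, and level-constant 1-cocycles of `N` are coboundaries (Hilbert 90).

* `exists_carry_of_restrict_eq_dOne`: a level-constant 2-cocycle `a` of `G` whose restriction to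
  `N` is the coboundary of a level-constant cochain is `carry χ b * dOne u` with `b` fixed by `G`
  and `u` level-constant (the kernel of restriction is made of cyclic classes);
* `exists_kummerCup_of_restrict_eq_dOne`: if moreover `a ^ n = 1`, `A` is `n`-divisible and
  Hilbert 90 holds on `G`, then `a = kummerCup χ β * dOne h` with `β ^ n` fixed by `G` and `h`
  level-constant with `h ^ n = 1` (`a` is cohomologous, in `n`-torsion coefficients, to the cup
  product of `χ` with a Kummer cocycle).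

Everything is done directly on inhomogeneous cochains: no `Rep`, no finite-level transport.
-/

set_option autoImplicit false
set_option linter.unusedSectionVars false

namespace Fermat.Agent.CFT.Cyclic

open groupCohomology
open Fermat.Agent.CFT.LC

variable {G : Type*} [Group G] {A : Type*} [CommGroup A] [MulDistribMulAction G A]
variable {n : ℕ} [NeZero n]

/-! ### Levels of multiplicative cochains -/

/-- A 1-cochain of level `U`: right-`U`-invariant, with `U`-fixed values. -/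
def IsMulLevel₁ (U : Subgroup G) (u : G → A) : Prop :=
  (∀ g t, t ∈ U → u (g * t) = u g) ∧ (∀ g t, t ∈ U → t • u g = u g)

/-- A 2-cochain of level `U`: right-`U`-invariant in both variables, with `U`-fixed values. -/
def IsMulLevel₂ (U : Subgroup G) (f : G × G → A) : Prop :=
  (∀ g h t t', t ∈ U → t' ∈ U → f (g * t, h * t') = f (g, h)) ∧
    (∀ g h t, t ∈ U → t • f (g, h) = f (g, h))

lemma IsMulLevel₁.mono {U V : Subgroup G} {u : G → A} (h : IsMulLevel₁ U u) (hle : V ≤ U) :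
    IsMulLevel₁ V u :=
  ⟨fun g t ht => h.1 g t (hle ht), fun g t ht => h.2 g t (hle ht)⟩

lemma IsMulLevel₂.mono {U V : Subgroup G} {f : G × G → A} (h : IsMulLevel₂ U f) (hle : V ≤ U) :
    IsMulLevel₂ V f :=
  ⟨fun g k t t' ht ht' => h.1 g k t t' (hle ht) (hle ht'), fun g k t ht => h.2 g k t (hle ht)⟩

lemma IsMulLevel₁.mul {U : Subgroup G} {u v : G → A} (hu : IsMulLevel₁ U u)
    (hv : IsMulLevel₁ U v) : IsMulLevel₁ U (u * v) :=
  ⟨fun g t ht => by simp only [Pi.mul_apply, hu.1 g t ht, hv.1 g t ht],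
    fun g t ht => by simp only [Pi.mul_apply, smul_mul', hu.2 g t ht, hv.2 g t ht]⟩

lemma IsMulLevel₁.div {U : Subgroup G} {u v : G → A} (hu : IsMulLevel₁ U u)
    (hv : IsMulLevel₁ U v) : IsMulLevel₁ U (u / v) :=
  ⟨fun g t ht => by simp only [Pi.div_apply, hu.1 g t ht, hv.1 g t ht],
    fun g t ht => by simp only [Pi.div_apply, smul_div', hu.2 g t ht, hv.2 g t ht]⟩

lemma IsMulLevel₂.mul {U : Subgroup G} {f f' : G × G → A} (hf : IsMulLevel₂ U f)
    (hf' : IsMulLevel₂ U f') : IsMulLevel₂ U (f * f') :=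
  ⟨fun g k t t' ht ht' => by
      simp only [Pi.mul_apply, hf.1 g k t t' ht ht', hf'.1 g k t t' ht ht'],
    fun g k t ht => by simp only [Pi.mul_apply, smul_mul', hf.2 g k t ht, hf'.2 g k t ht]⟩

lemma IsMulLevel₂.div {U : Subgroup G} {f f' : G × G → A} (hf : IsMulLevel₂ U f)
    (hf' : IsMulLevel₂ U f') : IsMulLevel₂ U (f / f') :=
  ⟨fun g k t t' ht ht' => by
      simp only [Pi.div_apply, hf.1 g k t t' ht ht', hf'.1 g k t t' ht ht'],
    fun g k t ht => by simp only [Pi.div_apply, smul_div', hf.2 g k t ht, hf'.2 g k t ht]⟩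

/-- Conjugates of an element fixed by a normal subgroup are fixed by it. -/
lemma smul_smul_eq_of_normal {U : Subgroup G} [hU : U.Normal] {x : A} (hx : ∀ t ∈ U, t • x = x)
    (g t : G) (ht : t ∈ U) : t • g • x = g • x := by
  have h1 : t • g • x = g • (g⁻¹ * t * g) • x := by
    rw [← mul_smul, ← mul_smul]
    congr 1
    group
  rw [h1, hx _ (hU.conj_mem' t ht g)]

lemma IsMulLevel₁.dOne {U : Subgroup G} [hU : U.Normal] {u : G → A} (h : IsMulLevel₁ U u) :
    IsMulLevel₂ U (dOne u) := by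
  constructor
  · intro g k t t' ht ht'
    simp only [dOne_apply]
    have e1 : u (k * t') = u k := h.1 k t' ht'
    have e2 : u (g * t * (k * t')) = u (g * k) := by
      have h2 : g * t * (k * t') = g * k * ((k⁻¹ * t * k) * t') := by group
      rw [h2]
      exact h.1 _ _ (U.mul_mem (hU.conj_mem' t ht k) ht')
    have e3 : u (g * t) = u g := h.1 g t ht
    rw [e1, e2, e3, mul_smul, h.2 k t ht]
  · intro g k t ht
    simp only [dOne_apply, smul_mul', smul_div']
    rw [smul_smul_eq_of_normal (h.2 k) g t ht, h.2 _ t ht, h.2 _ t ht]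

lemma isMulCocycle₂_mul {f f' : G × G → A} (hf : IsMulCocycle₂ f) (hf' : IsMulCocycle₂ f') :
    IsMulCocycle₂ (f * f') := by
  intro g h j
  simp only [Pi.mul_apply, smul_mul']
  rw [mul_mul_mul_comm, hf g h j, hf' g h j, mul_mul_mul_comm]

lemma isMulCocycle₂_div {f f' : G × G → A} (hf : IsMulCocycle₂ f) (hf' : IsMulCocycle₂ f') :
    IsMulCocycle₂ (f / f') := by
  intro g h j
  simp only [Pi.div_apply, smul_div']
  rw [div_mul_div_comm, hf g h j, hf' g h j, div_mul_div_comm]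

/-! ### The normalisation steps -/

section Normalize

variable {χ : G → ZMod n} (hχ : ∀ σ τ, χ (σ * τ) = χ σ + χ τ) {s : G} (hs : χ s = 1)

/-- The `ker χ`-component of `g` for the section `k ↦ s ^ k` of `χ`. -/
def kerPart (χ : G → ZMod n) (s : G) (g : G) : G := g * (s ^ (χ g).val)⁻¹

omit [NeZero n] in
lemma kerPart_mul_pow (χ : G → ZMod n) (s g : G) : kerPart χ s g * s ^ (χ g).val = g := by
  simp [kerPart]

include hχ hs in
lemma map_kerPart (g : G) : χ (kerPart χ s g) = 0 := by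
  rw [kerPart, hχ, map_inv_eq_neg hχ, map_pow_eq hχ, hs, mul_one, ZMod.natCast_zmod_val,
    add_neg_cancel]

include hχ in
lemma kerPart_mul_left {m : G} (hm : χ m = 0) (g : G) :
    kerPart χ s (m * g) = m * kerPart χ s g := by
  simp only [kerPart, hχ, hm, zero_add, mul_assoc]

include hχ in
lemma kerPart_mul_right {t : G} (ht : χ t = 0) (g : G) :
    kerPart χ s (g * t) = kerPart χ s g * (s ^ (χ g).val * t * (s ^ (χ g).val)⁻¹) := by
  simp only [kerPart, hχ, ht, add_zero]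
  group

include hχ in
lemma map_conj_eq_zero {m : G} (hm : χ m = 0) (g : G) : χ (g * m * g⁻¹) = 0 := by
  rw [hχ, hχ, map_inv_eq_neg hχ, hm, add_zero, add_neg_cancel]

include hχ in
lemma map_conj_eq_zero' {m : G} (hm : χ m = 0) (g : G) : χ (g⁻¹ * m * g) = 0 := by
  rw [hχ, hχ, map_inv_eq_neg hχ, hm, add_zero, neg_add_cancel]

/-- Step B: the cochain `g ↦ a (g₀, s ^ k)` for `g = g₀ * s ^ k`, `g₀ ∈ ker χ`. -/
def stepB (χ : G → ZMod n) (s : G) (a : G × G → A) : G → A :=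
  fun g => a (kerPart χ s g, s ^ (χ g).val)

include hχ in
lemma isMulLevel₁_stepB {U : Subgroup G} [hU : U.Normal] (hUker : ∀ t ∈ U, χ t = 0)
    {a : G × G → A} (ha : IsMulLevel₂ U a) : IsMulLevel₁ U (stepB χ s a) := by
  constructor
  · intro g t ht
    simp only [stepB]
    rw [kerPart_mul_right hχ (hUker t ht), hχ, hUker t ht, add_zero]
    have h1 := ha.1 (kerPart χ s g) (s ^ (χ g).val) _ 1
      (hU.conj_mem t ht (s ^ (χ g).val)) U.one_mem
    rwa [mul_one] at h1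
  · intro g t ht
    exact ha.2 _ _ t ht

include hχ hs in
lemma stepB_of_map_eq_zero {a : G × G → A}
    (ha1 : ∀ g h, χ g = 0 → χ h = 0 → a (g, h) = 1) {m : G} (hm : χ m = 0) :
    stepB χ s a m = 1 := by
  simp only [stepB, hm, ZMod.val_zero, pow_zero]
  exact ha1 _ _ (by simp [kerPart, hm]) (map_one_eq_zero hχ)

include hχ hs in
/-- After multiplying by `dOne (stepB χ s a)` the cocycle is trivial on `ker χ × G`. -/
theorem mul_dOne_stepB_apply {a : G × G → A} (ha : IsMulCocycle₂ a)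
    (ha1 : ∀ g h, χ g = 0 → χ h = 0 → a (g, h) = 1) {m : G} (hm : χ m = 0) (g : G) :
    a (m, g) * dOne (stepB χ s a) (m, g) = 1 := by
  have hg₀ : χ (kerPart χ s g) = 0 := map_kerPart hχ hs g
  have hcoc := ha m (kerPart χ s g) (s ^ (χ g).val)
  rw [ha1 m _ hm hg₀, mul_one, kerPart_mul_pow] at hcoc
  have e1 : stepB χ s a (m * g) = a (m * kerPart χ s g, s ^ (χ g).val) := by
    simp only [stepB, kerPart_mul_left hχ hm, hχ, hm, zero_add]
  have e2 : stepB χ s a g = a (kerPart χ s g, s ^ (χ g).val) := rfl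
  rw [dOne_apply, stepB_of_map_eq_zero hχ hs ha1 hm, mul_one, e1, e2, hcoc]
  apply Additive.ofMul.injective
  simp only [ofMul_mul, ofMul_div, ofMul_one]
  abel

include hχ in
/-- A cocycle trivial on `ker χ × G` is `ker χ`-equivariant in the first variable. -/
lemma map_mul_left_of_trivial {a : G × G → A} (ha : IsMulCocycle₂ a)
    (hl : ∀ m g, χ m = 0 → a (m, g) = 1) {m : G} (hm : χ m = 0) (g h : G) :
    a (m * g, h) = m • a (g, h) := by
  have h1 := ha m g h
  rwa [hl m g hm, hl m (g * h) hm, mul_one, mul_one] at h1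

include hχ in
/-- For a cocycle trivial on `ker χ × G`, the map `m ↦ a (r, r⁻¹ m r)` is a 1-cocycle on
`ker χ`. -/
lemma twist_cocycle {a : G × G → A} (ha : IsMulCocycle₂ a)
    (hl : ∀ m g, χ m = 0 → a (m, g) = 1) (r : G) {m : G} (hm : χ m = 0) (m' : G) :
    a (r, r⁻¹ * (m * m') * r) = m • a (r, r⁻¹ * m' * r) * a (r, r⁻¹ * m * r) := by
  have hμ : χ (r⁻¹ * m * r) = 0 := map_conj_eq_zero' hχ hm r
  have h1 := ha r (r⁻¹ * m * r) (r⁻¹ * m' * r)
  rw [hl _ _ hμ, smul_one, one_mul] at h1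
  have e1 : r * (r⁻¹ * m * r) = m * r := by group
  have e2 : r⁻¹ * m * r * (r⁻¹ * m' * r) = r⁻¹ * (m * m') * r := by group
  rw [e1, e2, map_mul_left_of_trivial hχ ha hl hm] at h1
  exact h1.symm

/-- Step C: the cochain `g ↦ g₀ • x k` for `g = g₀ * s ^ k`, `g₀ ∈ ker χ`. -/
def stepC (χ : G → ZMod n) (s : G) (x : ℕ → A) : G → A :=
  fun g => kerPart χ s g • x (χ g).val

include hχ in
lemma stepC_mul_left (x : ℕ → A) {m : G} (hm : χ m = 0) (g : G) :
    stepC χ s x (m * g) = m • stepC χ s x g := by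
  simp only [stepC, kerPart_mul_left hχ hm, hχ, hm, zero_add, mul_smul]

lemma stepC_of_map_eq_zero {x : ℕ → A} (hx0 : x 0 = 1) {m : G} (hm : χ m = 0) :
    stepC χ s x m = 1 := by
  simp only [stepC, hm, ZMod.val_zero, hx0, smul_one]

include hχ in
lemma isMulLevel₁_stepC {U : Subgroup G} [hU : U.Normal] (hUker : ∀ t ∈ U, χ t = 0)
    {x : ℕ → A} (hx : ∀ k, k < n → ∀ t ∈ U, t • x k = x k) : IsMulLevel₁ U (stepC χ s x) := by
  constructor
  · intro g t ht
    simp only [stepC]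
    rw [kerPart_mul_right hχ (hUker t ht), hχ, hUker t ht, add_zero, mul_smul,
      hx _ (ZMod.val_lt _) _ (hU.conj_mem t ht (s ^ (χ g).val))]
  · intro g t ht
    exact smul_smul_eq_of_normal (hx _ (ZMod.val_lt _)) _ t ht

include hχ hs in
/-- The key identity of step C. -/
lemma stepC_key {a : G × G → A} (ha : IsMulCocycle₂ a) (hl : ∀ m g, χ m = 0 → a (m, g) = 1)
    {x : ℕ → A}
    (hx : ∀ k m, χ m = 0 → m • x k / x k = a (s ^ k, (s ^ k)⁻¹ * m * s ^ k))
    (g : G) {m : G} (hm : χ m = 0) :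
    a (g, m) = (g * m * g⁻¹) • stepC χ s x g / stepC χ s x g := by
  have hg₀ : χ (kerPart χ s g) = 0 := map_kerPart hχ hs g
  have hg : kerPart χ s g * s ^ (χ g).val = g := kerPart_mul_pow χ s g
  have h1 : a (g, m) = kerPart χ s g • a (s ^ (χ g).val, m) := by
    have h2 := map_mul_left_of_trivial hχ ha hl hg₀ (s ^ (χ g).val) m
    rwa [hg] at h2
  have hm' : χ (s ^ (χ g).val * m * (s ^ (χ g).val)⁻¹) = 0 := map_conj_eq_zero hχ hm _
  have h3 : a (s ^ (χ g).val, m)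
      = (s ^ (χ g).val * m * (s ^ (χ g).val)⁻¹) • x (χ g).val / x (χ g).val := by
    rw [hx _ _ hm']
    congr 2
    group
  rw [h1, h3, smul_div', ← mul_smul]
  show _ = (g * m * g⁻¹) • (kerPart χ s g • x (χ g).val) / (kerPart χ s g • x (χ g).val)
  rw [← mul_smul]
  congr 2
  simp only [kerPart]
  group

include hχ hs in
/-- After multiplying by `dOne (stepC χ s x)` the cocycle is trivial on `G × ker χ`. -/
theorem mul_dOne_stepC_apply_right {a : G × G → A} (ha : IsMulCocycle₂ a)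
    (hl : ∀ m g, χ m = 0 → a (m, g) = 1) {x : ℕ → A} (hx0 : x 0 = 1)
    (hx : ∀ k m, χ m = 0 → m • x k / x k = a (s ^ k, (s ^ k)⁻¹ * m * s ^ k))
    (g : G) {m : G} (hm : χ m = 0) :
    a (g, m) * dOne (stepC χ s x) (g, m) = 1 := by
  have e1 : stepC χ s x (g * m) = (g * m * g⁻¹) • stepC χ s x g := by
    rw [← stepC_mul_left hχ x (map_conj_eq_zero hχ hm g)]
    congr 1
    group
  rw [stepC_key hχ hs ha hl hx g hm, dOne_apply, stepC_of_map_eq_zero hx0 hm, smul_one, e1]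
  apply Additive.ofMul.injective
  simp only [ofMul_mul, ofMul_div, ofMul_one]
  abel

include hχ in
/-- Multiplying by `dOne (stepC χ s x)` does not change the values on `ker χ × G`. -/
theorem dOne_stepC_apply_left {x : ℕ → A} (hx0 : x 0 = 1) {m : G} (hm : χ m = 0) (g : G) :
    dOne (stepC χ s x) (m, g) = 1 := by
  rw [dOne_apply, stepC_mul_left hχ x hm, stepC_of_map_eq_zero hx0 hm, mul_one, div_self']

include hχ in
/-- Step D: a cocycle trivial on `ker χ × G` and on `G × ker χ` is inflated from `G / ker χ`. -/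
theorem inflated_of_trivial {a : G × G → A} (ha : IsMulCocycle₂ a)
    (hl : ∀ m g, χ m = 0 → a (m, g) = 1) (hr : ∀ g m, χ m = 0 → a (g, m) = 1) :
    (∀ g h m, χ m = 0 → a (g, h * m) = a (g, h)) ∧ (∀ g h m, χ m = 0 → a (g * m, h) = a (g, h)) ∧
      (∀ g h m, χ m = 0 → m • a (g, h) = a (g, h)) := by
  have hD2 : ∀ g h m, χ m = 0 → a (g, h * m) = a (g, h) := by
    intro g h m hm
    have h1 := ha g h m
    rw [hr _ _ hm, hr _ _ hm, smul_one, one_mul, one_mul] at h1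
    exact h1.symm
  have hD4 : ∀ g h m, χ m = 0 → a (g * m, h) = a (g, h) := by
    intro g h m hm
    have h1 := ha g m h
    rw [hr _ _ hm, hl _ _ hm, smul_one, one_mul, mul_one] at h1
    have e1 : m * h = h * (h⁻¹ * m * h) := by group
    rw [h1, e1, hD2 _ _ _ (map_conj_eq_zero' hχ hm h)]
  refine ⟨hD2, hD4, ?_⟩
  intro g h m hm
  rw [← map_mul_left_of_trivial hχ ha hl hm]
  have e1 : m * g = g * (g⁻¹ * m * g) := by group
  rw [e1, hD4 _ _ _ (map_conj_eq_zero' hχ hm g)]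

end Normalize

/-! ### Inflated cocycles are carry cocycles -/

section Inflated

variable {χ : G → ZMod n} (hχ : ∀ σ τ, χ (σ * τ) = χ σ + χ τ) {s : G} (hs : χ s = 1)

include hχ hs in
lemma exists_eq_pow_mul (σ : G) : ∃ m, χ m = 0 ∧ σ = s ^ (χ σ).val * m := by
  refine ⟨(s ^ (χ σ).val)⁻¹ * σ, ?_, by group⟩
  rw [hχ, map_inv_eq_neg hχ, map_pow_eq hχ, hs, mul_one, ZMod.natCast_zmod_val, neg_add_cancel]

variable {f : G × G → A} (hf : IsMulCocycle₂ f)
  (hr2 : ∀ g h m, χ m = 0 → f (g, h * m) = f (g, h))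
  (hr1 : ∀ g h m, χ m = 0 → f (g * m, h) = f (g, h))
  (hfix : ∀ g h m, χ m = 0 → m • f (g, h) = f (g, h))

include hχ hs hf hr2 hr1 hfix in
/-- The invariant `∏_{k<n} f (s^k, s)` of an inflated 2-cocycle is fixed by the group. -/
lemma smul_prod_eq_of_inflated (σ : G) :
    σ • (∏ k ∈ Finset.range n, f (s ^ k, s)) = ∏ k ∈ Finset.range n, f (s ^ k, s) := by
  have hsn0 : χ (s ^ n) = 0 := map_pow_self_eq_zero hχ s
  have key : s • (∏ k ∈ Finset.range n, f (s ^ k, s)) = ∏ k ∈ Finset.range n, f (s ^ k, s) := by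
    have h1 : ∀ k : ℕ, f (s ^ (1 + k), s) * f (s, s ^ k) = s • f (s ^ k, s) * f (s, s ^ (1 + k)) := by
      intro k
      have := hf s (s ^ k) s
      rw [← pow_succ', ← pow_succ] at this
      rw [add_comm 1 k]; exact this
    have h2 := Finset.prod_congr (s₁ := Finset.range n) rfl fun k _ => h1 k
    rw [Finset.prod_mul_distrib, Finset.prod_mul_distrib,
      prod_range_shift_of_periodic (fun k => f (s ^ k, s)) n
        (fun j => by simp only [pow_add]; exact hr1 _ _ _ hsn0) 1,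
      prod_range_shift_of_periodic (fun k => f (s, s ^ k)) n
        (fun j => by simp only [pow_add]; exact hr2 _ _ _ hsn0) 1, ← Finset.smul_prod'] at h2
    exact (mul_right_cancel h2).symm
  obtain ⟨m, hm, hσ⟩ := exists_eq_pow_mul hχ hs σ
  have hmb : m • (∏ k ∈ Finset.range n, f (s ^ k, s)) = ∏ k ∈ Finset.range n, f (s ^ k, s) := by
    rw [Finset.smul_prod']
    exact Finset.prod_congr rfl fun k _ => hfix _ _ _ hm
  rw [hσ, mul_smul, hmb]
  generalize (χ σ).val = j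
  induction j with
  | zero => rw [pow_zero, one_smul]
  | succ j ih => rw [pow_succ, mul_smul, key, ih]

include hχ hs hf hr2 hr1 hfix in
/-- (C4, inflated form) A 2-cocycle inflated from the cyclic quotient `G / ker χ` is the carry
cocycle of its invariant `∏_{k<n} f (s^k, s)` times the coboundary of a cochain inflated from
`G / ker χ`. -/
theorem exists_carry_of_inflated :
    ∃ u : G → A, (∀ σ m, χ m = 0 → u (σ * m) = u σ) ∧ (∀ σ m, χ m = 0 → m • u σ = u σ) ∧
      ∀ σ τ, f (σ, τ)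
        = carry χ (∏ k ∈ Finset.range n, f (s ^ k, s)) (σ, τ) * dOne u (σ, τ) := by
  set b : A := ∏ k ∈ Finset.range n, f (s ^ k, s) with hb
  have hbfix : ∀ σ : G, σ • b = b := smul_prod_eq_of_inflated hχ hs hf hr2 hr1 hfix
  set u : G → A := fun σ => f (1, 1) / ∏ k ∈ Finset.range (χ σ).val, f (s ^ k, s) with hu
  have hu_congr : ∀ σ σ', χ σ = χ σ' → u σ = u σ' := fun σ σ' h => by simp only [hu, h]
  have hufix : ∀ σ m, χ m = 0 → m • u σ = u σ := by
    intro σ m hm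
    simp only [hu, smul_div', Finset.smul_prod', hfix _ _ _ hm]
  refine ⟨u, fun σ m hm => hu_congr _ _ (by rw [hχ, hm, add_zero]), hufix, ?_⟩
  have hu1 : u 1 = f (1, 1) := by
    simp only [hu, map_one_eq_zero hχ, ZMod.val_zero, Finset.range_zero, Finset.prod_empty, div_one]
  have hfτ : ∀ σ τ, f (σ, τ) = f (σ, s ^ (χ τ).val) := by
    intro σ τ
    obtain ⟨m, hm0, hτ⟩ := exists_eq_pow_mul hχ hs τ
    calc f (σ, τ) = f (σ, s ^ (χ τ).val * m) := by rw [← hτ]
      _ = _ := hr2 _ _ _ hm0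
  have hfσ : ∀ σ τ, f (σ, τ) = f (s ^ (χ σ).val, τ) := by
    intro σ τ
    obtain ⟨m, hm0, hσ⟩ := exists_eq_pow_mul hχ hs σ
    calc f (σ, τ) = f (s ^ (χ σ).val * m, τ) := by rw [← hσ]
      _ = _ := hr1 _ _ _ hm0
  by_cases hn : n = 1
  · subst hn
    intro σ τ
    have hσ0 : χ σ = 0 := Subsingleton.elim _ _
    have hτ0 : χ τ = 0 := Subsingleton.elim _ _
    have h10 : χ (1 : G) = 0 := map_one_eq_zero hχ
    rw [carry_of_left_eq_zero χ b τ hσ0, one_mul, dOne_apply, hfτ σ τ, hfσ σ, hσ0, hτ0,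
      ZMod.val_zero, pow_zero, hu_congr τ 1 (by rw [hτ0, h10]),
      hu_congr (σ * τ) 1 (by rw [hχ, hσ0, hτ0, h10, add_zero]), hu_congr σ 1 (by rw [hσ0, h10]),
      hu1, hfix 1 1 σ hσ0, div_self', one_mul]
  have hn2 : 2 ≤ n := by have := NeZero.ne n; omega
  have hv1 : (χ s).val = 1 := by rw [hs]; exact ZMod.val_one'' hn
  have hus : u s = 1 := by
    simp only [hu, hv1, Finset.prod_range_one, pow_zero]
    rw [map_one_fst_of_isMulCocycle₂ hf s, div_self']
  set F : G × G → A := fun x => carry χ b x * dOne u x with hF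
  have hFc : IsMulCocycle₂ F := by
    intro g h j
    have h1 := isMulCocycle₂_carry hχ hbfix g h j
    have h2 := isMulCocycle₂_dOne u g h j
    simp only [hF, smul_mul']
    calc carry χ b (g * h, j) * dOne u (g * h, j) * (carry χ b (g, h) * dOne u (g, h))
        = (carry χ b (g * h, j) * carry χ b (g, h)) * (dOne u (g * h, j) * dOne u (g, h)) := by
          rw [mul_mul_mul_comm]
      _ = _ := by rw [h1, h2, mul_mul_mul_comm]
  have hFχ : ∀ σ τ τ', χ τ = χ τ' → F (σ, τ) = F (σ, τ') := by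
    intro σ τ τ' h
    simp only [hF, carry_apply, dOne_apply]
    rw [h, hu_congr τ τ' h, hu_congr (σ * τ) (σ * τ') (by rw [hχ, hχ, h])]
  -- the column `τ = s`
  have hcol : ∀ σ, f (σ, s) = F (σ, s) := by
    intro σ
    have hm : (χ σ).val < n := ZMod.val_lt _
    have hfσs : f (σ, s) = f (s ^ (χ σ).val, s) := hfσ σ s
    simp only [hF, dOne_apply, hus, smul_one, one_div]
    by_cases hlt : (χ σ).val + 1 < n
    · have hval : (χ (σ * s)).val = (χ σ).val + 1 := by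
        rw [hχ, ZMod.val_add_of_lt (by rw [hv1]; exact hlt), hv1]
      rw [carry_of_lt χ b (by rw [hv1]; exact hlt), one_mul]
      simp only [hu, hval, Finset.prod_range_succ]
      rw [hfσs]
      apply Additive.ofMul.injective
      simp only [ofMul_mul, ofMul_div, ofMul_inv]
      abel
    · have hmn : (χ σ).val + 1 = n := by omega
      have hσs : χ (σ * s) = 0 := by
        have h1 : (((χ σ).val + 1 : ℕ) : ZMod n) = 0 := by rw [hmn]; exact ZMod.natCast_self n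
        rw [hχ, hs]
        rwa [Nat.cast_add, Nat.cast_one, ZMod.natCast_zmod_val] at h1
      rw [carry_of_le χ b (by rw [hv1]; omega),
        hu_congr (σ * s) 1 (by rw [hσs, map_one_eq_zero hχ]), hu1]
      have hbsplit : b = (∏ k ∈ Finset.range (χ σ).val, f (s ^ k, s)) * f (σ, s) := by
        rw [hb]
        conv_lhs => rw [← hmn]
        rw [Finset.prod_range_succ, ← hfσs]
      simp only [hu]
      rw [hbsplit]
      apply Additive.ofMul.injective
      simp only [ofMul_mul, ofMul_div, ofMul_inv]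
      abel
  -- induction on the second variable
  have hall : ∀ m : ℕ, ∀ σ, f (σ, s ^ m) = F (σ, s ^ m) := by
    intro m
    induction m with
    | zero =>
      intro σ
      rw [pow_zero, map_one_snd_of_isMulCocycle₂ hf, map_one_snd_of_isMulCocycle₂ hFc]
      simp only [hF, dOne_apply, one_smul, mul_one, div_self', one_mul, hu1]
      rw [carry_of_left_eq_zero χ b 1 (map_one_eq_zero hχ), one_mul]
    | succ m ih =>
      intro σ
      have e1 := hf σ (s ^ m) s
      have e2 := hFc σ (s ^ m) s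
      rw [hcol, ih, hcol] at e1
      rw [pow_succ]
      exact mul_left_cancel (e1.symm.trans e2)
  intro σ τ
  rw [hfτ σ τ, hall]
  exact hFχ σ _ _ (by rw [map_pow_eq hχ, hs, mul_one, ZMod.natCast_zmod_val])

end Inflated

/-! ### The splitting theorem -/

/-- Smoothness of `A` for the level basis `𝒩`: every element is fixed by a member. -/
def MulSmooth (𝒩 : LevelBasis G) (A : Type*) [CommGroup A] [MulDistribMulAction G A] : Prop :=
  ∀ x : A, ∃ U, 𝒩.mem U ∧ ∀ t ∈ U, t • x = x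

/-- Hilbert 90 for level-constant 1-cocycles on `ker χ`. -/
def H90Ker (𝒩 : LevelBasis G) (χ : G → ZMod n) (A : Type*) [CommGroup A]
    [MulDistribMulAction G A] : Prop :=
  ∀ f : G → A, (∀ g h, χ g = 0 → χ h = 0 → f (g * h) = g • f h * f g) →
    (∃ V, 𝒩.mem V ∧ ∀ g t, χ g = 0 → t ∈ V → f (g * t) = f g) →
    ∃ x : A, ∀ g, χ g = 0 → g • x / x = f g

/-- Hilbert 90 for level-constant 1-cocycles on `G`. -/
def H90Top (𝒩 : LevelBasis G) (A : Type*) [CommGroup A] [MulDistribMulAction G A] : Prop :=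
  ∀ f : G → A, (∀ g h, f (g * h) = g • f h * f g) → 𝒩.Const₁ f → ∃ x : A, ∀ g, g • x / x = f g

lemma MulSmooth.exists_fixing {𝒩 : LevelBasis G} (hA : MulSmooth 𝒩 A) {V : Set A}
    (hV : V.Finite) {U₀ : Subgroup G} (hU₀ : 𝒩.mem U₀) :
    ∃ U, 𝒩.mem U ∧ U ≤ U₀ ∧ ∀ x ∈ V, ∀ t ∈ U, t • x = x := by
  induction V, hV using Set.Finite.induction_on with
  | empty => exact ⟨U₀, hU₀, le_rfl, fun a ha => absurd ha (Set.notMem_empty a)⟩
  | @insert a V _ _ ih =>
    obtain ⟨N, hN, hle, hfix⟩ := ih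
    obtain ⟨N', hN', hfix'⟩ := hA a
    obtain ⟨N'', hN'', hle''⟩ := 𝒩.directed N N' hN hN'
    refine ⟨N'', hN'', fun s hs => hle (hle'' hs).1, fun b hb s hs => ?_⟩
    rcases Set.mem_insert_iff.1 hb with rfl | hb
    · exact hfix' s (hle'' hs).2
    · exact hfix b hb s (hle'' hs).1

lemma exists_isMulLevel₁ (𝒩 : LevelBasis G) (hA : MulSmooth 𝒩 A) {u : G → A}
    (hu : 𝒩.Const₁ u) {U₀ : Subgroup G} (hU₀ : 𝒩.mem U₀) :
    ∃ U, 𝒩.mem U ∧ U ≤ U₀ ∧ IsMulLevel₁ U u := by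
  obtain ⟨N₁, hN₁, h⟩ := hu
  have := 𝒩.finiteIndex N₁ hN₁
  obtain ⟨N₂, hN₂, hle₂⟩ := 𝒩.directed U₀ N₁ hU₀ hN₁
  obtain ⟨N, hN, hle, hfix⟩ := hA.exists_fixing (range_finite_of_const₁ h) hN₂
  exact ⟨N, hN, fun s hs => (hle₂ (hle hs)).1,
    fun g s hs => h g s (hle₂ (hle hs)).2, fun g s hs => hfix _ ⟨g, rfl⟩ s hs⟩

lemma exists_isMulLevel₂ (𝒩 : LevelBasis G) (hA : MulSmooth 𝒩 A) {f : G × G → A}
    (hf : 𝒩.Const₂ f) {U₀ : Subgroup G} (hU₀ : 𝒩.mem U₀) :
    ∃ U, 𝒩.mem U ∧ U ≤ U₀ ∧ IsMulLevel₂ U f := by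
  obtain ⟨N₁, hN₁, h⟩ := hf
  have := 𝒩.finiteIndex N₁ hN₁
  obtain ⟨N₂, hN₂, hle₂⟩ := 𝒩.directed U₀ N₁ hU₀ hN₁
  obtain ⟨N, hN, hle, hfix⟩ := hA.exists_fixing (range_finite_of_const₂ h) hN₂
  exact ⟨N, hN, fun s hs => (hle₂ (hle hs)).1,
    fun g g' s s' hs hs' => h g g' s s' (hle₂ (hle hs)).2 (hle₂ (hle hs')).2,
    fun g g' s hs => hfix _ ⟨(g, g'), rfl⟩ s hs⟩

section Main

variable {χ : G → ZMod n} (hχ : ∀ σ τ, χ (σ * τ) = χ σ + χ τ) {s : G} (hs : χ s = 1)
variable (𝒩 : LevelBasis G)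

include hχ hs in
/-- Core of the splitting theorem: a 2-cocycle of level `U ≤ ker χ` which is trivial on
`ker χ × ker χ` is a carry cocycle times the coboundary of a cochain of some level. -/
theorem exists_carry_of_trivial_on_ker (hA : MulSmooth 𝒩 A) (h90 : H90Ker 𝒩 χ A)
    {U : Subgroup G} (hU : 𝒩.mem U) (hUker : ∀ t ∈ U, χ t = 0)
    {a : G × G → A} (ha : IsMulCocycle₂ a) (hal : IsMulLevel₂ U a)
    (ha1 : ∀ g h, χ g = 0 → χ h = 0 → a (g, h) = 1) :
    ∃ b : A, (∀ σ : G, σ • b = b) ∧ ∃ u : G → A, (∃ V, 𝒩.mem V ∧ V ≤ U ∧ IsMulLevel₁ V u) ∧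
      ∀ σ τ, a (σ, τ) = carry χ b (σ, τ) * dOne u (σ, τ) := by
  have hUn : U.Normal := 𝒩.normal U hU
  -- step B
  set u₁ := stepB χ s a with hu₁
  have hu₁l : IsMulLevel₁ U u₁ := isMulLevel₁_stepB hχ hUker hal
  set a₂ : G × G → A := a * dOne u₁ with ha₂
  have ha₂c : IsMulCocycle₂ a₂ := isMulCocycle₂_mul ha (isMulCocycle₂_dOne u₁)
  have ha₂l : IsMulLevel₂ U a₂ := hal.mul hu₁l.dOne
  have hl₂ : ∀ m g, χ m = 0 → a₂ (m, g) = 1 :=
    fun m g hm => mul_dOne_stepB_apply hχ hs ha ha1 hm g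
  -- step C: Hilbert 90 on `ker χ`
  have hex : ∀ k : ℕ, ∃ y : A, (k = 0 → y = 1) ∧
      ∀ m, χ m = 0 → m • y / y = a₂ (s ^ k, (s ^ k)⁻¹ * m * s ^ k) := by
    intro k
    by_cases hk : k = 0
    · subst hk
      refine ⟨1, fun _ => rfl, fun m hm => ?_⟩
      rw [smul_one, div_one, pow_zero]
      exact (hl₂ 1 _ (map_one_eq_zero hχ)).symm
    · obtain ⟨y, hy⟩ := h90 (fun m => a₂ (s ^ k, (s ^ k)⁻¹ * m * s ^ k))
        (fun g h hg _ => twist_cocycle hχ ha₂c hl₂ (s ^ k) hg h)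
        ⟨U, hU, fun g t _ ht => by
          have e : (s ^ k)⁻¹ * (g * t) * s ^ k
              = (s ^ k)⁻¹ * g * s ^ k * ((s ^ k)⁻¹ * t * s ^ k) := by group
          show a₂ (s ^ k, (s ^ k)⁻¹ * (g * t) * s ^ k) = a₂ (s ^ k, (s ^ k)⁻¹ * g * s ^ k)
          rw [e]
          have h1 := ha₂l.1 (s ^ k) ((s ^ k)⁻¹ * g * s ^ k) 1 _ U.one_mem
            (hUn.conj_mem' t ht (s ^ k))
          rwa [mul_one] at h1⟩
      exact ⟨y, fun h => absurd h hk, hy⟩
  choose x hx0 hx using hex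
  obtain ⟨U', hU', hU'le, hU'fix⟩ :=
    hA.exists_fixing (Set.finite_range (fun k : Fin n => x k)) hU
  have hU'n : U'.Normal := 𝒩.normal U' hU'
  set w := stepC χ s x with hw
  have hwl : IsMulLevel₁ U' w := isMulLevel₁_stepC hχ (fun t ht => hUker t (hU'le ht))
    (fun k hk t ht => hU'fix _ ⟨⟨k, hk⟩, rfl⟩ t ht)
  set a₃ : G × G → A := a₂ * dOne w with ha₃
  have ha₃c : IsMulCocycle₂ a₃ := isMulCocycle₂_mul ha₂c (isMulCocycle₂_dOne w)
  have hl₃ : ∀ m g, χ m = 0 → a₃ (m, g) = 1 := fun m g hm => by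
    show a₂ (m, g) * dOne w (m, g) = 1
    rw [hl₂ m g hm, dOne_stepC_apply_left hχ (hx0 0 rfl) hm, mul_one]
  have hr₃ : ∀ g m, χ m = 0 → a₃ (g, m) = 1 := fun g m hm =>
    mul_dOne_stepC_apply_right hχ hs ha₂c hl₂ (hx0 0 rfl) hx g hm
  obtain ⟨hD2, hD4, hD6⟩ := inflated_of_trivial hχ ha₃c hl₃ hr₃
  obtain ⟨v, hv1, hv2, hv⟩ := exists_carry_of_inflated hχ hs ha₃c hD2 hD4 hD6
  refine ⟨∏ k ∈ Finset.range n, a₃ (s ^ k, s), smul_prod_eq_of_inflated hχ hs ha₃c hD2 hD4 hD6,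
    v / (w * u₁), ⟨U', hU', hU'le, ?_⟩, ?_⟩
  · have hvl : IsMulLevel₁ U' v :=
      ⟨fun g t ht => hv1 g t (hUker t (hU'le ht)), fun g t ht => hv2 g t (hUker t (hU'le ht))⟩
    exact hvl.div (hwl.mul (hu₁l.mono hU'le))
  · intro σ τ
    rw [dOne_div, dOne_mul, ← mul_div_assoc, ← hv σ τ]
    show a (σ, τ) = a (σ, τ) * dOne u₁ (σ, τ) * dOne w (σ, τ) / (dOne w (σ, τ) * dOne u₁ (σ, τ))
    apply Additive.ofMul.injective
    simp only [ofMul_mul, ofMul_div]
    abel

include hχ hs in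
/-- **Splitting theorem (inflation–restriction in degree 2 for a cyclic quotient).**  A
level-constant 2-cocycle of `G` whose restriction to `ker χ` is the coboundary of a level-constant
cochain is a carry cocycle `carry χ b`, `b` fixed by `G`, times a level-constant coboundary. -/
theorem exists_carry_of_restrict_eq_dOne (hA : MulSmooth 𝒩 A) (h90 : H90Ker 𝒩 χ A)
    (hker : ∃ U, 𝒩.mem U ∧ ∀ t ∈ U, χ t = 0) {a : G × G → A} (ha : IsMulCocycle₂ a)
    (halev : 𝒩.Const₂ a) {c : G → A} (hclev : 𝒩.Const₁ c)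
    (hac : ∀ g h, χ g = 0 → χ h = 0 → a (g, h) = dOne c (g, h)) :
    ∃ b : A, (∀ σ : G, σ • b = b) ∧ ∃ u : G → A, 𝒩.Const₁ u ∧
      ∀ σ τ, a (σ, τ) = carry χ b (σ, τ) * dOne u (σ, τ) := by
  obtain ⟨U₀, hU₀, hU₀ker⟩ := hker
  obtain ⟨U₁, hU₁, hU₁le, hal⟩ := exists_isMulLevel₂ 𝒩 hA halev hU₀
  obtain ⟨U, hU, hUle, hcl⟩ := exists_isMulLevel₁ 𝒩 hA hclev hU₁
  have hUn : U.Normal := 𝒩.normal U hU
  have hUker : ∀ t ∈ U, χ t = 0 := fun t ht => hU₀ker t (hU₁le (hUle ht))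
  obtain ⟨b, hb, u, ⟨V, hV, hVle, hul⟩, hu⟩ :=
    exists_carry_of_trivial_on_ker hχ hs 𝒩 hA h90 hU hUker (a := a / dOne c)
      (isMulCocycle₂_div ha (isMulCocycle₂_dOne c)) ((hal.mono hUle).div hcl.dOne)
      (fun g h hg hh => by
        show a (g, h) / dOne c (g, h) = 1
        rw [hac g h hg hh, div_self'])
  refine ⟨b, hb, u * c, ⟨V, hV, (hul.mul (hcl.mono hVle)).1⟩, fun σ τ => ?_⟩
  have h1 := hu σ τ
  rw [dOne_mul, ← mul_assoc, ← h1]
  show a (σ, τ) = a (σ, τ) / dOne c (σ, τ) * dOne c (σ, τ)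
  rw [div_mul_cancel]

include hχ hs in
/-- **Splitting theorem, Kummer form.**  If moreover `a` has values killed by `n`, `A` is
`n`-divisible and Hilbert 90 holds on `G`, then `a` is the cup product `kummerCup χ β` of `χ` with
a Kummer cocycle (`β ^ n` fixed by `G`) times the coboundary of a level-constant cochain with
values killed by `n`. -/
theorem exists_kummerCup_of_restrict_eq_dOne (hA : MulSmooth 𝒩 A) (h90 : H90Ker 𝒩 χ A)
    (hker : ∃ U, 𝒩.mem U ∧ ∀ t ∈ U, χ t = 0) (h90G : H90Top 𝒩 A)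
    (hdiv : ∀ x : A, ∃ y : A, y ^ n = x) {a : G × G → A} (ha : IsMulCocycle₂ a)
    (halev : 𝒩.Const₂ a) (hpow : ∀ σ τ, a (σ, τ) ^ n = 1) {c : G → A} (hclev : 𝒩.Const₁ c)
    (hac : ∀ g h, χ g = 0 → χ h = 0 → a (g, h) = dOne c (g, h)) :
    ∃ β : A, (∀ σ : G, σ • β ^ n = β ^ n) ∧ ∃ h : G → A, (∀ σ, h σ ^ n = 1) ∧ 𝒩.Const₁ h ∧
      ∀ σ τ, a (σ, τ) = kummerCup χ β (σ, τ) * dOne h (σ, τ) := by
  obtain ⟨b, hb, u, hul, hu⟩ :=
    exists_carry_of_restrict_eq_dOne hχ hs 𝒩 hA h90 hker ha halev hclev hac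
  obtain ⟨β, hβ⟩ := hdiv b
  have hbβ : ∀ σ : G, σ • β ^ n = β ^ n := fun σ => by rw [hβ, hb]
  refine ⟨β, hbβ, ?_⟩
  set w : G → A := fun g => kummerAux χ β g * u g with hw
  have hww : w = kummerAux χ β * u := rfl
  have haw : ∀ σ τ, a (σ, τ) = kummerCup χ β (σ, τ) * dOne w (σ, τ) := by
    intro σ τ
    rw [hu σ τ, kummerCup_eq hχ hbβ σ τ, hβ, hww, dOne_mul, ← mul_assoc, div_mul_cancel]
  obtain ⟨U₀, hU₀, hU₀ker⟩ := hker
  obtain ⟨U₁, hU₁, hU₁fix⟩ := hA β
  obtain ⟨U₂, hU₂, hU₂le⟩ := 𝒩.directed U₀ U₁ hU₀ hU₁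
  have hauxl : 𝒩.Const₁ (kummerAux χ β) := ⟨U₂, hU₂, fun g t ht => by
    simp only [kummerAux_apply, hχ, hU₀ker t (hU₂le ht).1, add_zero, mul_smul,
      hU₁fix t (hU₂le ht).2]⟩
  have hwl : 𝒩.Const₁ w := hauxl.map₂ hul (fun x y => x * y)
  have hkc : ∀ σ τ, kummerCup χ β (σ, τ) ^ n = 1 := by
    intro σ τ
    have h1 : (σ • (τ • β / β)) ^ n = 1 := by
      rw [← smul_pow', div_pow, ← smul_pow', hbβ, div_self', smul_one]
    rw [kummerCup_apply, ← pow_mul, mul_comm, pow_mul, h1, one_pow]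
  have hdw : ∀ σ τ, dOne w (σ, τ) ^ n = 1 := by
    intro σ τ
    have h1 := congrArg (· ^ n) (haw σ τ)
    simp only [mul_pow, hpow, hkc, one_mul] at h1
    exact h1.symm
  have hcoc : ∀ g h, w (g * h) ^ n = g • (w h ^ n) * w g ^ n := by
    intro g h
    have h1 := hdw g h
    rw [dOne_apply, mul_pow, div_pow, ← smul_pow'] at h1
    rw [div_mul_eq_mul_div, div_eq_one] at h1
    exact h1.symm
  obtain ⟨γ, hγ⟩ := h90G (fun g => w g ^ n) hcoc (hwl.comp (· ^ n))
  obtain ⟨Γ, hΓ⟩ := hdiv γ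
  refine ⟨fun σ => w σ * (Γ / σ • Γ), ?_, ?_, ?_⟩
  · intro σ
    have h1 : w σ ^ n = σ • γ / γ := (hγ σ).symm
    rw [mul_pow, div_pow, ← smul_pow', hΓ, h1]
    apply Additive.ofMul.injective
    simp only [ofMul_mul, ofMul_div, ofMul_one]
    abel
  · obtain ⟨U₃, hU₃, hU₃fix⟩ := hA Γ
    have h1 : 𝒩.Const₁ (fun σ : G => Γ / σ • Γ) :=
      ⟨U₃, hU₃, fun g t ht => by simp only [mul_smul, hU₃fix t ht]⟩
    exact hwl.map₂ h1 (fun x y => x * y)
  · intro σ τ
    rw [haw σ τ]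
    congr 1
    simp only [dOne_apply, smul_mul', smul_div', mul_smul]
    apply Additive.ofMul.injective
    simp only [ofMul_mul, ofMul_div]
    abel

end Main

end Fermat.Agent.CFT.Cyclic
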