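import Fermat.Agent.CFT.Cyclic.Split
import Fermat.Agent.CFT.Cyclic.Galois

/-!
# Cyclic symbols: the splitting theorem in Galois groups

`Ω/K` Galois with `Ω` algebraically closed, `L/K` a finite cyclic subextension cut out by the
additive character `χ : Gal(Ω/K) → ZMod n` (`ker χ = Fix L`, `χ s = 1`).

* `galBasis K Ω`: the level basis of `Gal(Ω/K)` (fixing subgroups of finite normal subextensions),
  with `Ωˣ` smooth and Hilbert 90 on `Gal(Ω/K)` and on `Fix L`;
* `exists_kummerCup_of_restrict_eq_dOne_galois`: a level-constant 2-cocycle `a` of `Gal(Ω/K)` with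
  values in the `n`-th roots of unity whose restriction to `Fix L` is the coboundary of a
  level-constant `Ωˣ`-valued cochain is `χ ∪ κ_b` (`kummerCup χ β`, `β ^ n = b ∈ Kˣ`) times the
  coboundary of a level-constant cochain with values in the `n`-th roots of unity.
  (Global use: `K = ℚ`, `L = E` cyclic of degree `p`, the hypothesis is the output of the Hasse
  principle over `E`; this is the step "`res_E x = 0 ⟹ x = χ ∪ κ_b`" of reciprocity.)
-/

set_option autoImplicit false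
set_option linter.unusedSectionVars false

namespace Fermat.Agent.CFT.Cyclic

open groupCohomology
open Fermat.Agent.CFT.LC

section GalBasis

variable (K Ω : Type) [Field K] [Field Ω] [Algebra K Ω] [IsGalois K Ω]

/-- The level basis of `Gal(Ω/K)`: fixing subgroups of finite normal subextensions. -/
def galBasis : LevelBasis (Ω ≃ₐ[K] Ω) where
  mem U := ∃ F : IntermediateField K Ω, FiniteDimensional K F ∧ Normal K F ∧ U = F.fixingSubgroup
  normal := by
    rintro _ ⟨F, _, hFn, rfl⟩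
    rw [← IntermediateField.restrictNormalHom_ker F]
    exact MonoidHom.normal_ker _
  finiteIndex := by
    rintro _ ⟨F, hF, hFn, rfl⟩
    rw [← IntermediateField.restrictNormalHom_ker F]
    exact Subgroup.finiteIndex_ker _
  directed := by
    rintro _ _ ⟨F, hF, hFn, rfl⟩ ⟨F', hF', hFn', rfl⟩
    refine ⟨(F ⊔ F').fixingSubgroup, ⟨F ⊔ F', inferInstance, ?_, rfl⟩,
      IntermediateField.fixingSubgroup_sup.le⟩
    exact IntermediateField.normal_sup K Ω F F'
  nonempty := ⟨(⊥ : IntermediateField K Ω).fixingSubgroup, ⊥, inferInstance,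
    Normal.of_algEquiv (IntermediateField.botEquiv K Ω).symm, rfl⟩

variable {K Ω}

/-- Every finite subextension is contained in a finite normal one. -/
lemma exists_finite_normal_ge (F : IntermediateField K Ω) [FiniteDimensional K F] :
    ∃ F' : IntermediateField K Ω, FiniteDimensional K F' ∧ Normal K F' ∧ F ≤ F' :=
  ⟨IntermediateField.normalClosure K F Ω, inferInstance, normalClosure.normal K F Ω,
    F.le_normalClosure⟩

theorem const₁_galBasis_iff {X : Type*} (f : (Ω ≃ₐ[K] Ω) → X) :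
    (galBasis K Ω).Const₁ f ↔ ∃ F : IntermediateField K Ω, FiniteDimensional K F ∧
      ∀ g, ∀ t ∈ F.fixingSubgroup, f (g * t) = f g := by
  constructor
  · rintro ⟨_, ⟨F, hF, _, rfl⟩, h⟩
    exact ⟨F, hF, fun g t ht => h g t ht⟩
  · rintro ⟨F, hF, h⟩
    obtain ⟨F', hF', hFn', hle⟩ := exists_finite_normal_ge F
    exact ⟨F'.fixingSubgroup, ⟨F', hF', hFn', rfl⟩,
      fun g t ht => h g t (IntermediateField.fixingSubgroup_antitone hle ht)⟩

theorem const₂_galBasis_iff {X : Type*} (f : (Ω ≃ₐ[K] Ω) × (Ω ≃ₐ[K] Ω) → X) :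
    (galBasis K Ω).Const₂ f ↔ ∃ F : IntermediateField K Ω, FiniteDimensional K F ∧
      ∀ g g' t t', t ∈ F.fixingSubgroup → t' ∈ F.fixingSubgroup → f (g * t, g' * t') = f (g, g') := by
  constructor
  · rintro ⟨_, ⟨F, hF, _, rfl⟩, h⟩
    exact ⟨F, hF, fun g g' t t' ht ht' => h g g' t t' ht ht'⟩
  · rintro ⟨F, hF, h⟩
    obtain ⟨F', hF', hFn', hle⟩ := exists_finite_normal_ge F
    exact ⟨F'.fixingSubgroup, ⟨F', hF', hFn', rfl⟩, fun g g' t t' ht ht' =>
      h g g' t t' (IntermediateField.fixingSubgroup_antitone hle ht)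
        (IntermediateField.fixingSubgroup_antitone hle ht')⟩

theorem mulSmooth_galBasis : MulSmooth (galBasis K Ω) Ωˣ := by
  intro x
  have hx : IsIntegral K (x : Ω) := Algebra.IsIntegral.isIntegral _
  have : FiniteDimensional K (IntermediateField.adjoin K {(x : Ω)}) :=
    IntermediateField.adjoin.finiteDimensional hx
  obtain ⟨F', hF', hFn', hle⟩ := exists_finite_normal_ge (IntermediateField.adjoin K {(x : Ω)})
  refine ⟨F'.fixingSubgroup, ⟨F', hF', hFn', rfl⟩, fun t ht => ?_⟩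
  rw [Units.ext_iff]
  exact (IntermediateField.mem_fixingSubgroup_iff F' t).1 ht _
    (hle (IntermediateField.mem_adjoin_simple_self K _))

theorem h90Top_galBasis : H90Top (galBasis K Ω) Ωˣ := by
  intro f hf hfl
  obtain ⟨F, hF, hFl⟩ := (const₁_galBasis_iff f).1 hfl
  obtain ⟨x, hx⟩ := exists_smul_div_eq_of_levelConstant (⊤ : Subgroup (Ω ≃ₐ[K] Ω)) f
    (fun g _ h _ => hf g h) F (fun g _ t _ ht => hFl g t ht)
  exact ⟨x, fun g => hx g (Subgroup.mem_top g)⟩

end GalBasis

section Main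

variable {K Ω : Type} [Field K] [Field Ω] [Algebra K Ω] [IsGalois K Ω]
variable (L : IntermediateField K Ω) [FiniteDimensional K L] [IsGalois K L]
variable {n : ℕ} [NeZero n] {χ : (Ω ≃ₐ[K] Ω) → ZMod n}
  (hχ : ∀ σ τ, χ (σ * τ) = χ σ + χ τ)
  (hker : ∀ g, χ g = 0 ↔ g ∈ L.fixingSubgroup)
  {s : Ω ≃ₐ[K] Ω} (hs : χ s = 1)

include hker in
theorem h90Ker_galBasis : H90Ker (galBasis K Ω) χ Ωˣ := by
  rintro f hf ⟨_, ⟨F, hF, hFn, rfl⟩, hV⟩
  obtain ⟨x, hx⟩ := exists_smul_div_eq_of_levelConstant L.fixingSubgroup f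
    (fun g hg h hh => hf g h ((hker g).2 hg) ((hker h).2 hh)) F
    (fun g hg t _ ht => hV g t ((hker g).2 hg) ht)
  exact ⟨x, fun g hg => hx g ((hker g).1 hg)⟩

include hχ hker hs in
/-- **Splitting theorem, Galois form.**  Let `a` be a level-constant 2-cocycle of `Gal(Ω/K)` with
values in the `n`-th roots of unity whose restriction to `Fix L` (`L/K` cyclic, cut out by `χ`) is
the coboundary of a level-constant cochain `c : Fix L → Ωˣ`.  Then there are `b ∈ Kˣ`, `β` with
`β ^ n = b` and a level-constant cochain `h` with values in the `n`-th roots of unity such that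
`a = (χ ∪ κ_b) * d h`, where `χ ∪ κ_b = kummerCup χ β`. -/
theorem exists_kummerCup_of_restrict_eq_dOne_galois [IsAlgClosed Ω]
    (a : (Ω ≃ₐ[K] Ω) × (Ω ≃ₐ[K] Ω) → Ωˣ) (ha : IsMulCocycle₂ a)
    (halev : ∃ F : IntermediateField K Ω, FiniteDimensional K F ∧
      ∀ g g' t t', t ∈ F.fixingSubgroup → t' ∈ F.fixingSubgroup → a (g * t, g' * t') = a (g, g'))
    (hpow : ∀ σ τ, a (σ, τ) ^ n = 1)
    (c : L.fixingSubgroup → Ωˣ)
    (hclev : ∃ F : IntermediateField K Ω, FiniteDimensional K F ∧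
      ∀ g t : L.fixingSubgroup, (t : Ω ≃ₐ[K] Ω) ∈ F.fixingSubgroup → c (g * t) = c g)
    (hc : ∀ g t : L.fixingSubgroup,
      a ((g : Ω ≃ₐ[K] Ω), (t : Ω ≃ₐ[K] Ω)) = (g : Ω ≃ₐ[K] Ω) • c t / c (g * t) * c g) :
    ∃ (b : K) (β : Ωˣ) (h : (Ω ≃ₐ[K] Ω) → Ωˣ), b ≠ 0 ∧ (β : Ω) ^ n = algebraMap K Ω b ∧
      (∀ σ, h σ ^ n = 1) ∧
      (∃ F : IntermediateField K Ω, FiniteDimensional K F ∧
        ∀ g, ∀ t ∈ F.fixingSubgroup, h (g * t) = h g) ∧
      ∀ σ τ, a (σ, τ) = kummerCup χ β (σ, τ) * dOne h (σ, τ) := by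
  classical
  -- extend `c` by `1` outside `Fix L`
  set c' : (Ω ≃ₐ[K] Ω) → Ωˣ := fun g => if hg : g ∈ L.fixingSubgroup then c ⟨g, hg⟩ else 1
    with hc'
  have hc'lev : (galBasis K Ω).Const₁ c' := by
    obtain ⟨F, hF, hFl⟩ := hclev
    rw [const₁_galBasis_iff]
    refine ⟨L ⊔ F, IntermediateField.finiteDimensional_sup L F, fun g t ht => ?_⟩
    have htL : t ∈ L.fixingSubgroup := IntermediateField.fixingSubgroup_antitone le_sup_left ht
    have htF : t ∈ F.fixingSubgroup := IntermediateField.fixingSubgroup_antitone le_sup_right ht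
    by_cases hg : g ∈ L.fixingSubgroup
    · have hgt : g * t ∈ L.fixingSubgroup := mul_mem hg htL
      simp only [hc', dif_pos hg, dif_pos hgt]
      exact hFl ⟨g, hg⟩ ⟨t, htL⟩ htF
    · have hgt : g * t ∉ L.fixingSubgroup := fun h => hg (by
        have h2 := mul_mem h (inv_mem htL)
        rwa [mul_inv_cancel_right] at h2)
      simp only [hc', dif_neg hg, dif_neg hgt]
  have hac : ∀ g h, χ g = 0 → χ h = 0 → a (g, h) = dOne c' (g, h) := by
    intro g h hg hh
    have hg' := (hker g).1 hg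
    have hh' := (hker h).1 hh
    have h1 := hc ⟨g, hg'⟩ ⟨h, hh'⟩
    rw [dOne_apply]
    simp only [hc', dif_pos hg', dif_pos hh', dif_pos (mul_mem hg' hh')]
    exact h1
  have hkerlev : ∃ U, (galBasis K Ω).mem U ∧ ∀ t ∈ U, χ t = 0 :=
    ⟨L.fixingSubgroup, ⟨L, inferInstance, inferInstance, rfl⟩, fun t ht => (hker t).2 ht⟩
  have hdiv : ∀ y : Ωˣ, ∃ η : Ωˣ, η ^ n = y := by
    intro y
    obtain ⟨z, hz⟩ := IsAlgClosed.exists_pow_nat_eq (y : Ω) (NeZero.pos n)
    have hz0 : z ≠ 0 := by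
      rintro rfl
      rw [zero_pow (NeZero.ne n)] at hz
      exact y.ne_zero hz.symm
    exact ⟨Units.mk0 z hz0, by rw [Units.ext_iff]; simpa using hz⟩
  obtain ⟨β, hβ, h, hhn, hhl, hah⟩ := exists_kummerCup_of_restrict_eq_dOne hχ hs (galBasis K Ω)
    mulSmooth_galBasis (h90Ker_galBasis L hker) hkerlev h90Top_galBasis hdiv ha
    ((const₂_galBasis_iff a).2 halev) hpow hc'lev hac
  have hfix : ∀ σ : Ω ≃ₐ[K] Ω, σ ((β : Ω) ^ n) = (β : Ω) ^ n := by
    intro σ
    have h1 := congrArg Units.val (hβ σ)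
    simpa [AlgEquiv.smul_units_def] using h1
  obtain ⟨b, hb⟩ := (InfiniteGalois.mem_range_algebraMap_iff_fixed ((β : Ω) ^ n)).2 hfix
  refine ⟨b, β, h, ?_, hb.symm, hhn, (const₁_galBasis_iff h).1 hhl, hah⟩
  rintro rfl
  rw [map_zero] at hb
  exact pow_ne_zero n β.ne_zero hb.symm

end Main

end Fermat.Agent.CFT.Cyclic
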